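import Mathlib.NumberTheory.Height.EllipticCurve
import Mathlib.NumberTheory.Height.NumberField
import Mathlib.NumberTheory.Height.Northcott
import Mathlib.GroupTheory.Descent

/-!
# The naive height on an elliptic curve: the parallelogram law and the finiteness theorem

Let `K` be a field with a theory of heights (`Height.AdmissibleAbsValues K`) and `W` an elliptic
curve over `K`. The naive height of a point `P` is the logarithmic height of the point `x(P)` of
the projective line.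

* `addSubMap_sym2x`: Mathlib's map `addSubMap W` of the projective plane does what it is meant to
  do: it sends `(x(P) x(Q) : x(P) + x(Q) : 1)` to `(x(P+Q) x(P-Q) : x(P+Q) + x(P-Q) : 1)`;
* `abs_ht_add_sub_le`: the parallelogram law up to a bounded quantity,
  `|h(P + Q) + h(P - Q) - 2 (h(P) + h(Q))| ≤ C`;
* `finite_ht_le`: over a number field there are only finitely many points of bounded height;
* `finite_torsion`: the torsion subgroup of `E(K)`, `K` a number field, is finite;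
* `fg_of_finiteIndex`: if `2 E(K)` has finite index in `E(K)`, `K` a number field, then `E(K)` is
  finitely generated (Mathlib's descent theorem applied to the naive height).
-/

namespace Fermat.Agent.Cor.MordellWeil

open WeierstrassCurve WeierstrassCurve.Affine MvPolynomial

section Identities

variable {F : Type*} [Field F] (W : WeierstrassCurve F)

/-- The value of `addSubMap W` at the vector `![s, t, u]`. -/
lemma eval_addSubMap (s t u : F) :
    (fun i => (addSubMap W i).eval ![s, t, u]) =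
      ![s ^ 2 - W.b₄ * s * u - W.b₆ * t * u - W.b₈ * u ^ 2,
        2 * t * s + W.b₂ * s * u + W.b₄ * t * u + W.b₆ * u ^ 2,
        t ^ 2 - 4 * s * u] := by
  funext i
  fin_cases i <;> simp [addSubMap]

/-- The sum of the abscissas of `P + Q` and `P - Q`, cleared of denominators. -/
lemma sum_identity {x₁ y₁ x₂ y₂ : F} (h₁ : W.toAffine.Equation x₁ y₁)
    (h₂ : W.toAffine.Equation x₂ y₂) (hx : x₁ ≠ x₂) :
    (x₁ - x₂) ^ 2 * (W.toAffine.addX x₁ x₂ ((y₁ - y₂) / (x₁ - x₂)) +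
        W.toAffine.addX x₁ x₂ ((y₁ - W.toAffine.negY x₂ y₂) / (x₁ - x₂))) =
      2 * (x₁ + x₂) * (x₁ * x₂) + W.b₂ * (x₁ * x₂) + W.b₄ * (x₁ + x₂) + W.b₆ := by
  have hd : x₁ - x₂ ≠ 0 := sub_ne_zero.mpr hx
  rw [equation_iff] at h₁ h₂
  have e₁ : (x₁ - x₂) ^ 2 * W.toAffine.addX x₁ x₂ ((y₁ - y₂) / (x₁ - x₂)) =
      (y₁ - y₂) ^ 2 + W.a₁ * (x₁ - x₂) * (y₁ - y₂) -
        (x₁ - x₂) ^ 2 * (W.a₂ + x₁ + x₂) := by
    rw [addX]
    field_simp
    ring
  have e₂ : (x₁ - x₂) ^ 2 *
      W.toAffine.addX x₁ x₂ ((y₁ - W.toAffine.negY x₂ y₂) / (x₁ - x₂)) =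
      (y₁ + y₂ + W.a₁ * x₂ + W.a₃) ^ 2 +
        W.a₁ * (x₁ - x₂) * (y₁ + y₂ + W.a₁ * x₂ + W.a₃) -
        (x₁ - x₂) ^ 2 * (W.a₂ + x₁ + x₂) := by
    rw [addX, negY]
    field_simp
    ring
  rw [mul_add, e₁, e₂, b₂, b₄, b₆]
  linear_combination 2 * h₁ + 2 * h₂

/-- The product of the abscissas of `P + Q` and `P - Q`, cleared of denominators. -/
lemma prod_identity {x₁ y₁ x₂ y₂ : F} (h₁ : W.toAffine.Equation x₁ y₁)
    (h₂ : W.toAffine.Equation x₂ y₂) (hx : x₁ ≠ x₂) :
    (x₁ - x₂) ^ 2 * (W.toAffine.addX x₁ x₂ ((y₁ - y₂) / (x₁ - x₂)) *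
        W.toAffine.addX x₁ x₂ ((y₁ - W.toAffine.negY x₂ y₂) / (x₁ - x₂))) =
      (x₁ * x₂) ^ 2 - W.b₄ * (x₁ * x₂) - W.b₆ * (x₁ + x₂) - W.b₈ := by
  have hd : x₁ - x₂ ≠ 0 := sub_ne_zero.mpr hx
  rw [equation_iff] at h₁ h₂
  have e₁ : (x₁ - x₂) ^ 2 * W.toAffine.addX x₁ x₂ ((y₁ - y₂) / (x₁ - x₂)) =
      (y₁ - y₂) ^ 2 + W.a₁ * (x₁ - x₂) * (y₁ - y₂) -
        (x₁ - x₂) ^ 2 * (W.a₂ + x₁ + x₂) := by
    rw [addX]
    field_simp
    ring
  have e₂ : (x₁ - x₂) ^ 2 *
      W.toAffine.addX x₁ x₂ ((y₁ - W.toAffine.negY x₂ y₂) / (x₁ - x₂)) =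
      (y₁ + y₂ + W.a₁ * x₂ + W.a₃) ^ 2 +
        W.a₁ * (x₁ - x₂) * (y₁ + y₂ + W.a₁ * x₂ + W.a₃) -
        (x₁ - x₂) ^ 2 * (W.a₂ + x₁ + x₂) := by
    rw [addX, negY]
    field_simp
    ring
  refine mul_left_cancel₀ (pow_ne_zero 2 hd) ?_
  have e₃ : (x₁ - x₂) ^ 2 * ((x₁ - x₂) ^ 2 *
      (W.toAffine.addX x₁ x₂ ((y₁ - y₂) / (x₁ - x₂)) *
        W.toAffine.addX x₁ x₂ ((y₁ - W.toAffine.negY x₂ y₂) / (x₁ - x₂)))) =
      ((x₁ - x₂) ^ 2 * W.toAffine.addX x₁ x₂ ((y₁ - y₂) / (x₁ - x₂))) *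
      ((x₁ - x₂) ^ 2 *
        W.toAffine.addX x₁ x₂ ((y₁ - W.toAffine.negY x₂ y₂) / (x₁ - x₂))) := by ring
  rw [e₃, e₁, e₂, b₄, b₆, b₈]
  linear_combination
    (y₁ ^ 2 + y₁ * x₁ * W.a₁ + y₁ * W.a₃ - 2 * y₂ ^ 2 - 2 * y₂ * x₂ * W.a₁ - 2 * y₂ * W.a₃
      - x₁ ^ 3 + 2 * x₁ ^ 2 * x₂ - x₁ ^ 2 * W.a₂ + 2 * x₁ * x₂ ^ 2 + x₁ * x₂ * W.a₁ ^ 2
      + 4 * x₁ * x₂ * W.a₂ + x₁ * W.a₁ * W.a₃ + x₁ * W.a₄ - 2 * x₂ ^ 3 - x₂ ^ 2 * W.a₁ ^ 2
      - 2 * x₂ ^ 2 * W.a₂ - x₂ * W.a₁ * W.a₃ + W.a₆) * h₁ +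
    (y₂ ^ 2 + y₂ * x₂ * W.a₁ + y₂ * W.a₃ - 4 * x₁ ^ 3 + 2 * x₁ ^ 2 * x₂ - x₁ ^ 2 * W.a₁ ^ 2
      - 4 * x₁ ^ 2 * W.a₂ + 2 * x₁ * x₂ ^ 2 + x₁ * x₂ * W.a₁ ^ 2 + 4 * x₁ * x₂ * W.a₂
      - x₁ * W.a₁ * W.a₃ - 2 * x₁ * W.a₄ - x₂ ^ 3 - x₂ ^ 2 * W.a₂ + x₂ * W.a₁ * W.a₃
      + x₂ * W.a₄ - W.a₆) * h₂

/-- `(2y + a₁x + a₃)² = 4x³ + b₂x² + 2b₄x + b₆` on the curve. -/
lemma sq_sub_negY {x y : F} (h : W.toAffine.Equation x y) :
    (y - W.toAffine.negY x y) ^ 2 = 4 * x ^ 3 + W.b₂ * x ^ 2 + 2 * W.b₄ * x + W.b₆ := by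
  rw [equation_iff] at h
  rw [negY, b₂, b₄, b₆]
  linear_combination 4 * h

/-- The duplication formula, cleared of denominators. -/
lemma dup_identity {x y : F} (h : W.toAffine.Equation x y) (hy : y ≠ W.toAffine.negY x y) :
    (y - W.toAffine.negY x y) ^ 2 * W.toAffine.addX x x
        ((3 * x ^ 2 + 2 * W.a₂ * x + W.a₄ - W.a₁ * y) / (y - W.toAffine.negY x y)) =
      x ^ 4 - W.b₄ * x ^ 2 - 2 * W.b₆ * x - W.b₈ := by
  have hd : y - W.toAffine.negY x y ≠ 0 := sub_ne_zero.mpr hy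
  rw [equation_iff] at h
  have e : (y - W.toAffine.negY x y) ^ 2 * W.toAffine.addX x x
      ((3 * x ^ 2 + 2 * W.a₂ * x + W.a₄ - W.a₁ * y) / (y - W.toAffine.negY x y)) =
      (3 * x ^ 2 + 2 * W.a₂ * x + W.a₄ - W.a₁ * y) ^ 2 +
        W.a₁ * (3 * x ^ 2 + 2 * W.a₂ * x + W.a₄ - W.a₁ * y) * (y - W.toAffine.negY x y) -
        (W.a₂ + 2 * x) * (y - W.toAffine.negY x y) ^ 2 := by
    rw [addX]
    field_simp
    ring
  rw [e, negY, b₄, b₆, b₈]
  linear_combination (-8 * x - W.a₁ ^ 2 - 4 * W.a₂) * h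

variable [DecidableEq F]

/-- The case `P = Q` of `addSubMap_sym2x`. -/
lemma addSubMap_sym2x_self {x y : F} (h : W.toAffine.Nonsingular x y) :
    ∃ c : F, (fun i => (addSubMap W i).eval ((Point.some x y h).sym2x (Point.some x y h))) =
      c • (Point.some x y h + Point.some x y h).sym2x 0 := by
  by_cases hy : y = W.toAffine.negY x y
  · have h2 := sq_sub_negY W h.1
    rw [← hy, sub_self] at h2
    refine ⟨x ^ 4 - W.b₄ * x ^ 2 - 2 * W.b₆ * x - W.b₈, ?_⟩
    rw [Point.add_self_of_Y_eq hy, Point.sym2x_some_some, eval_addSubMap, Point.sym2x_zero_zero]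
    funext i
    fin_cases i
    · simp
      ring
    · simp
      linear_combination -h2
    · simp
      ring
  · refine ⟨(y - W.toAffine.negY x y) ^ 2, ?_⟩
    rw [Point.add_self_of_Y_ne hy, Point.sym2x_some_some, eval_addSubMap, Point.sym2x_some_zero,
      slope_of_Y_ne rfl hy]
    have h1 := dup_identity W h.1 hy
    have h2 := sq_sub_negY W h.1
    funext i
    fin_cases i
    · simp only [Fin.zero_eta, Matrix.cons_val_zero, Pi.smul_apply, smul_eq_mul]
      rw [h1]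
      ring
    · simp only [Fin.mk_one, Matrix.cons_val_one, Matrix.cons_val_zero, Pi.smul_apply, smul_eq_mul]
      rw [h2]
      ring
    · simp
      ring

/-- **Mathlib's map `addSubMap W` gives the abscissas of the sum and of the difference**: up to a
scalar factor it sends `(x(P) x(Q), x(P) + x(Q), 1)` to `(x(P+Q) x(P-Q), x(P+Q) + x(P-Q), 1)`
(in homogeneous coordinates, for all points `P`, `Q` including the point at infinity). -/
theorem exists_addSubMap_sym2x (P Q : W.toAffine.Point) :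
    ∃ c : F, (fun i => (addSubMap W i).eval (P.sym2x Q)) = c • (P + Q).sym2x (P - Q) := by
  match P, Q with
  | 0, 0 =>
    refine ⟨1, ?_⟩
    rw [sub_zero, add_zero, Point.sym2x_zero_zero, eval_addSubMap]
    funext i
    fin_cases i <;> simp
  | 0, .some x y h =>
    refine ⟨1, ?_⟩
    rw [zero_add, zero_sub, Point.sym2x_neg_right, Point.sym2x_zero_some, Point.sym2x_some_some,
      eval_addSubMap]
    funext i
    fin_cases i
    · simp [sq]
    · simp
      ring
    · simp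
  | .some x y h, 0 =>
    refine ⟨1, ?_⟩
    rw [add_zero, sub_zero, Point.sym2x_some_zero, Point.sym2x_some_some, eval_addSubMap]
    funext i
    fin_cases i
    · simp [sq]
    · simp
      ring
    · simp
  | .some x₁ y₁ h₁, .some x₂ y₂ h₂ =>
    by_cases hx : x₁ = x₂
    · rcases Point.X_eq_iff.mp hx with h | h
      · rw [← h]
        obtain ⟨c, hc⟩ := addSubMap_sym2x_self W h₁
        exact ⟨c, by rw [hc, sub_self]⟩
      · obtain ⟨c, hc⟩ := addSubMap_sym2x_self W h₁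
        refine ⟨c, ?_⟩
        have h' : Point.some x₂ y₂ h₂ = -Point.some x₁ y₁ h₁ := by rw [h, neg_neg]
        rw [h', Point.sym2x_neg_right, hc, add_neg_cancel, sub_neg_eq_add,
          Point.sym2x_comm]
    · refine ⟨(x₁ - x₂) ^ 2, ?_⟩
      rw [sub_eq_add_neg (Point.some x₁ y₁ h₁), Point.neg_some, Point.add_of_X_ne hx, Point.add_of_X_ne hx,
        Point.sym2x_some_some, Point.sym2x_some_some, eval_addSubMap, slope_of_X_ne hx,
        slope_of_X_ne hx]
      have e₁ := sum_identity W h₁.1 h₂.1 hx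
      have e₂ := prod_identity W h₁.1 h₂.1 hx
      funext i
      fin_cases i
      · simp only [Fin.zero_eta, Matrix.cons_val_zero, Pi.smul_apply, smul_eq_mul]
        rw [e₂]
        ring
      · simp only [Fin.mk_one, Matrix.cons_val_one, Matrix.cons_val_zero, Pi.smul_apply,
          smul_eq_mul]
        rw [e₁]
        ring
      · simp
        ring

/-- `exists_addSubMap_sym2x` for an elliptic curve: the scalar factor is not zero. -/
theorem addSubMap_sym2x [W.IsElliptic] (P Q : W.toAffine.Point) :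
    ∃ c : F, c ≠ 0 ∧
      (fun i => (addSubMap W i).eval (P.sym2x Q)) = c • (P + Q).sym2x (P - Q) := by
  obtain ⟨c, hc⟩ := exists_addSubMap_sym2x W P Q
  refine ⟨c, ?_, hc⟩
  rintro rfl
  exact addSubMap_ne_zero W (Point.sym2x_ne_zero P Q) (by rw [hc, zero_smul])

end Identities

section Height

open Height

variable {K : Type*} [Field K]

/-- The naive (logarithmic) height of a point of a Weierstrass curve: the height of its abscissa,
a point of the projective line. -/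
noncomputable def ht [AdmissibleAbsValues K] {W : WeierstrassCurve K} (P : W.toAffine.Point) : ℝ :=
  logHeight P.xRep

variable [AdmissibleAbsValues K] {W : WeierstrassCurve K}

@[simp]
lemma ht_zero : ht (0 : W.toAffine.Point) = 0 := by
  rw [ht, Point.xRep_zero, logHeight_swap, ← logHeight₁_eq_logHeight, logHeight₁_zero]

lemma ht_some {x y : K} (h : W.toAffine.Nonsingular x y) :
    ht (Point.some x y h) = logHeight₁ x := by
  rw [ht, Point.xRep_some, ← logHeight₁_eq_logHeight]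

@[simp]
lemma ht_neg (P : W.toAffine.Point) : ht (-P) = ht P := by
  rw [ht, ht, Point.xRep_neg]

lemma ht_nonneg (P : W.toAffine.Point) : 0 ≤ ht P :=
  logHeight_nonneg _

variable (W)

/-- The height of the unordered pair `{x(P), x(Q)}` (a point of the projective plane) is
`h(P) + h(Q)` up to a bounded quantity. -/
lemma abs_logHeight_sym2x_sub_le :
    ∃ C, ∀ P Q : W.toAffine.Point, |logHeight (P.sym2x Q) - (ht P + ht Q)| ≤ C := by
  obtain ⟨C, hC⟩ := abs_logHeight_sym2_sub_le K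
  refine ⟨C, fun P Q => ?_⟩
  have e : ∀ v : Fin 2 → K, ![v 0, v 1] = v := fun v => by
    funext i
    fin_cases i <;> rfl
  have h := hC (a := P.xRep 0) (b := P.xRep 1) (c := Q.xRep 0) (d := Q.xRep 1)
    (by rw [e]; exact P.xRep_ne_zero) (by rw [e]; exact Q.xRep_ne_zero)
  rw [e, e] at h
  exact h

variable [W.IsElliptic] [DecidableEq K]

/-- **The parallelogram law for the naive height, up to a bounded quantity.** -/
theorem abs_ht_add_sub_le :
    ∃ C, ∀ P Q : W.toAffine.Point, |ht (P + Q) + ht (P - Q) - 2 * (ht P + ht Q)| ≤ C := by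
  obtain ⟨C₁, h₁⟩ := abs_logHeight_sym2x_sub_le W
  obtain ⟨C₂, h₂⟩ := abs_logHeight_addSubMap_sub_two_mul_logHeight_le W
  refine ⟨3 * C₁ + C₂, fun P Q => ?_⟩
  obtain ⟨c, hc, h⟩ := addSubMap_sym2x W P Q
  have e₁ := abs_le.mp (h₁ (P + Q) (P - Q))
  have e₂ := abs_le.mp (h₁ P Q)
  have e₃ := abs_le.mp (h₂ (P.sym2x Q))
  rw [h, logHeight_smul_eq_logHeight _ hc] at e₃
  rw [abs_le]
  constructor <;> linarith [e₁.1, e₁.2, e₂.1, e₂.2, e₃.1, e₃.2]

end Height

section NumberField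

open Height

variable {K : Type*} [Field K] [NumberField K] (W : WeierstrassCurve K)

/-- **Northcott's theorem**: over a number field, there are only finitely many points of bounded
naive height. -/
theorem finite_ht_le (B : ℝ) : {P : W.toAffine.Point | ht P ≤ B}.Finite := by
  classical
  have hfin : {x : K | logHeight₁ x ≤ B}.Finite := NumberField.finite_setOfPred_logHeight₁_le K B
  -- a point is determined by its abscissa up to sign
  have hsub : {P : W.toAffine.Point | ht P ≤ B} ⊆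
      {0} ∪ ⋃ x ∈ {x : K | logHeight₁ x ≤ B},
        {P : W.toAffine.Point | ∃ y h, P = Point.some x y h} := by
    intro P hP
    match P, hP with
    | 0, _ => exact Or.inl rfl
    | .some x y h, hP =>
      refine Or.inr (Set.mem_biUnion (x := x) ?_ ⟨y, h, rfl⟩)
      change ht (Point.some x y h) ≤ B at hP
      rwa [ht_some] at hP
  refine Set.Finite.subset ((Set.finite_singleton _).union (hfin.biUnion fun x _ => ?_)) hsub
  by_cases hne : ∃ P : W.toAffine.Point, ∃ y h, P = Point.some x y h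
  · obtain ⟨P, y₀, h₀, rfl⟩ := hne
    refine Set.Finite.subset (Set.toFinite
      ({Point.some x y₀ h₀, -Point.some x y₀ h₀} : Set W.toAffine.Point)) ?_
    rintro _ ⟨y, h, rfl⟩
    rcases (Point.X_eq_iff (h₁ := h) (h₂ := h₀)).mp rfl with e | e
    · exact Or.inl e
    · exact Or.inr e
  · refine Set.Finite.subset Set.finite_empty ?_
    rintro P hP
    exact (hne ⟨P, hP⟩).elim

/-- Northcott's theorem as an instance of Mathlib's class. -/
instance northcott_ht : Northcott (ht : W.toAffine.Point → ℝ) :=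
  ⟨fun B => finite_ht_le W B⟩

variable [W.IsElliptic] [DecidableEq K]

/-- **The torsion subgroup of the group of points of an elliptic curve over a number field is
finite.** -/
theorem finite_torsion : Finite (AddCommGroup.torsion W.toAffine.Point) := by
  obtain ⟨C, hC⟩ := abs_ht_add_sub_le W
  exact AddCommGroup.finite_torsion_of_descent' hC

/-- The descent: if `2 E(K)` has finite index in `E(K)`, then `E(K)` is finitely generated. -/
theorem fg_of_finiteIndex
    (h : (nsmulAddMonoidHom (α := W.toAffine.Point) 2).range.FiniteIndex) :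
    AddGroup.FG W.toAffine.Point := by
  obtain ⟨C, hC⟩ := abs_ht_add_sub_le W
  exact AddCommGroup.fg_of_descent' h ht_nonneg hC

end NumberField

end Fermat.Agent.Cor.MordellWeil
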