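import Mathlib

/-!
# Complete 2-descent, the algebra

`W` is a Weierstrass curve over a field `F` with `2 ≠ 0` whose 2-torsion polynomial is
`4 (x - e₁) (x - e₂) (x - e₃)`.

* `isSquare_line` : `(x₁ - e) (x₂ - e) (x(P + Q) - e)` is a square;
* `exists_half` : if the `x(P) - e_i` are squares, then `P` is divisible by `2`.
-/

namespace Fermat.Agent.Cor.MordellWeil

open WeierstrassCurve

variable {F : Type*} [Field F]

/-- The 2-torsion polynomial `4x³ + b₂x² + 2b₄x + b₆` is `4 (x - e₁) (x - e₂) (x - e₃)`. -/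
structure Splits2 (W : WeierstrassCurve F) (e₁ e₂ e₃ : F) : Prop where
  h2 : W.b₂ = -4 * (e₁ + e₂ + e₃)
  h4 : W.b₄ = 2 * (e₁ * e₂ + e₁ * e₃ + e₂ * e₃)
  h6 : W.b₆ = -4 * (e₁ * e₂ * e₃)

/-- `η = y + (a₁ x + a₃) / 2`. -/
noncomputable def eta (W : WeierstrassCurve F) (x y : F) : F := y + (W.a₁ * x + W.a₃) / 2

theorem two_eta (h2 : (2 : F) ≠ 0) (W : WeierstrassCurve F) (x y : F) :
    2 * eta W x y = 2 * y + W.a₁ * x + W.a₃ := by
  unfold eta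
  field_simp
  ring

theorem four_eta_sq (h2 : (2 : F) ≠ 0) (W : WeierstrassCurve F) {x y : F}
    (h : W.toAffine.Equation x y) :
    4 * eta W x y ^ 2 = 4 * x ^ 3 + W.b₂ * x ^ 2 + 2 * W.b₄ * x + W.b₆ := by
  rw [Affine.equation_iff] at h
  have h3 := two_eta h2 W x y
  have h4 : 4 * eta W x y ^ 2 = (2 * y + W.a₁ * x + W.a₃) ^ 2 := by
    rw [← h3]
    ring
  rw [h4]
  unfold b₂ b₄ b₆
  linear_combination 4 * h

theorem four_ne (h2 : (2 : F) ≠ 0) : (4 : F) ≠ 0 := by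
  have : (4 : F) = 2 * 2 := by norm_num
  rw [this]
  exact mul_ne_zero h2 h2

theorem eta_sq (h2 : (2 : F) ≠ 0) {W : WeierstrassCurve F} {e₁ e₂ e₃ : F}
    (hs : Splits2 W e₁ e₂ e₃) {x y : F} (h : W.toAffine.Equation x y) :
    eta W x y ^ 2 = (x - e₁) * (x - e₂) * (x - e₃) := by
  have h1 := four_eta_sq h2 W h
  rw [hs.h2, hs.h4, hs.h6] at h1
  refine mul_left_cancel₀ (four_ne h2) ?_
  rw [h1]
  ring

/-- The three roots are different on an elliptic curve. -/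
theorem ne_of_splits (h2 : (2 : F) ≠ 0) {W : WeierstrassCurve F} (hΔ : W.Δ ≠ 0) {e₁ e₂ e₃ : F}
    (hs : Splits2 W e₁ e₂ e₃) : e₁ ≠ e₂ ∧ e₁ ≠ e₃ ∧ e₂ ≠ e₃ := by
  have h8 : 4 * W.b₈ = W.b₂ * W.b₆ - W.b₄ ^ 2 := W.b_relation
  have h : 4 * W.Δ = 64 * ((e₁ - e₂) * (e₁ - e₃) * (e₂ - e₃)) ^ 2 := by
    have h1 : 4 * W.Δ = -W.b₂ ^ 2 * (4 * W.b₈) - 32 * W.b₄ ^ 3 - 108 * W.b₆ ^ 2 +
        36 * W.b₂ * W.b₄ * W.b₆ := by
      unfold Δ
      ring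
    rw [h1, h8, hs.h2, hs.h4, hs.h6]
    ring
  have h0 : (e₁ - e₂) * (e₁ - e₃) * (e₂ - e₃) ≠ 0 := by
    intro h0
    rw [h0] at h
    have : 4 * W.Δ = 0 := by rw [h]; ring
    exact (mul_ne_zero (four_ne h2) hΔ) this
  refine ⟨?_, ?_, ?_⟩
  · rintro rfl
    exact h0 (by ring)
  · rintro rfl
    exact h0 (by ring)
  · rintro rfl
    exact h0 (by ring)

theorem root₁ {W : WeierstrassCurve F} {e₁ e₂ e₃ : F} (hs : Splits2 W e₁ e₂ e₃) :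
    4 * e₁ ^ 3 + W.b₂ * e₁ ^ 2 + 2 * W.b₄ * e₁ + W.b₆ = 0 := by
  rw [hs.h2, hs.h4, hs.h6]
  ring

theorem root₂ {W : WeierstrassCurve F} {e₁ e₂ e₃ : F} (hs : Splits2 W e₁ e₂ e₃) :
    4 * e₂ ^ 3 + W.b₂ * e₂ ^ 2 + 2 * W.b₄ * e₂ + W.b₆ = 0 := by
  rw [hs.h2, hs.h4, hs.h6]
  ring

theorem root₃ {W : WeierstrassCurve F} {e₁ e₂ e₃ : F} (hs : Splits2 W e₁ e₂ e₃) :
    4 * e₃ ^ 3 + W.b₂ * e₃ ^ 2 + 2 * W.b₄ * e₃ + W.b₆ = 0 := by
  rw [hs.h2, hs.h4, hs.h6]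
  ring

variable [DecidableEq F]

/-- The line through `P` and `Q`, evaluated at a root `e` of the 2-torsion polynomial. -/
theorem isSquare_line (h2 : (2 : F) ≠ 0) {W : WeierstrassCurve F} {e : F}
    (he : 4 * e ^ 3 + W.b₂ * e ^ 2 + 2 * W.b₄ * e + W.b₆ = 0) {x₁ x₂ y₁ y₂ : F}
    (h₁ : W.toAffine.Equation x₁ y₁) (h₂ : W.toAffine.Equation x₂ y₂)
    (hxy : ¬(x₁ = x₂ ∧ y₁ = W.toAffine.negY x₂ y₂)) :
    IsSquare ((x₁ - e) * (x₂ - e) *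
      (W.toAffine.addX x₁ x₂ (W.toAffine.slope x₁ x₂ y₁ y₂) - e)) := by
  have h := congrArg (Polynomial.eval e) (Affine.addPolynomial_slope h₁ h₂ hxy)
  set ℓ := W.toAffine.slope x₁ x₂ y₁ y₂ with hℓ
  set x₃ := W.toAffine.addX x₁ x₂ ℓ with hx₃
  rw [Affine.addPolynomial_eq] at h
  simp only [Cubic.toPoly, Polynomial.eval_neg, Polynomial.eval_add, Polynomial.eval_mul,
    Polynomial.eval_sub, Polynomial.eval_C, Polynomial.eval_X, Polynomial.eval_pow] at h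
  refine ⟨eta W e (ℓ * (e - x₁) + y₁), ?_⟩
  have h3 := two_eta h2 W e (ℓ * (e - x₁) + y₁)
  refine mul_left_cancel₀ (four_ne h2) ?_
  have h4 : 4 * (eta W e (ℓ * (e - x₁) + y₁) * eta W e (ℓ * (e - x₁) + y₁)) =
      (2 * (ℓ * (e - x₁) + y₁) + W.a₁ * e + W.a₃) ^ 2 := by
    rw [← h3]
    ring
  rw [h4]
  unfold b₂ b₄ b₆ at he
  linear_combination (-4) * h - he

omit [DecidableEq F] in
/-- The coefficients in terms of `α = a₁ / 2`, `γ = a₃ / 2` and the roots. -/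
theorem exists_coeffs (h2 : (2 : F) ≠ 0) {W : WeierstrassCurve F} {e₁ e₂ e₃ : F}
    (hs : Splits2 W e₁ e₂ e₃) : ∃ α γ : F, W.a₁ = 2 * α ∧ W.a₃ = 2 * γ ∧
      W.a₂ = -(e₁ + e₂ + e₃) - α ^ 2 ∧ W.a₄ = (e₁ * e₂ + e₁ * e₃ + e₂ * e₃) - 2 * α * γ ∧
      W.a₆ = -(e₁ * e₂ * e₃) - γ ^ 2 := by
  have h1 : W.a₁ = 2 * (W.a₁ / 2) := by field_simp
  have h3 : W.a₃ = 2 * (W.a₃ / 2) := by field_simp
  set α := W.a₁ / 2
  set γ := W.a₃ / 2
  have k2 := hs.h2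
  have k4 := hs.h4
  have k6 := hs.h6
  unfold b₂ at k2
  unfold b₄ at k4
  unfold b₆ at k6
  rw [h1] at k2
  rw [h1, h3] at k4
  rw [h3] at k6
  refine ⟨α, γ, h1, h3, ?_, ?_, ?_⟩
  · refine mul_left_cancel₀ (four_ne h2) ?_
    linear_combination k2
  · refine mul_left_cancel₀ h2 ?_
    linear_combination k4
  · refine mul_left_cancel₀ (four_ne h2) ?_
    linear_combination k6

theorem exists_half_aux (h2 : (2 : F) ≠ 0) {W : WeierstrassCurve F} (hΔ : W.Δ ≠ 0) {e₁ e₂ e₃ : F}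
    (hs : Splits2 W e₁ e₂ e₃) {x y : F} (h : W.toAffine.Nonsingular x y) {r₁ r₂ r₃ : F}
    (hr₁ : x - e₁ = r₁ ^ 2) (hr₂ : x - e₂ = r₂ ^ 2) (hr₃ : x - e₃ = r₃ ^ 2)
    (hη : eta W x y = r₁ * r₂ * r₃) :
    ∃ Q : W.toAffine.Point, Q + Q = Affine.Point.some x y h := by
  obtain ⟨n12, n13, n23⟩ := ne_of_splits h2 hΔ hs
  have m12 : r₁ + r₂ ≠ 0 := by
    intro h0
    apply n12
    have : r₁ ^ 2 = r₂ ^ 2 := by
      have : r₁ = -r₂ := by linear_combination h0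
      rw [this]; ring
    linear_combination hr₂ - hr₁ - this
  have m13 : r₁ + r₃ ≠ 0 := by
    intro h0
    apply n13
    have : r₁ ^ 2 = r₃ ^ 2 := by
      have : r₁ = -r₃ := by linear_combination h0
      rw [this]; ring
    linear_combination hr₃ - hr₁ - this
  have m23 : r₂ + r₃ ≠ 0 := by
    intro h0
    apply n23
    have : r₂ ^ 2 = r₃ ^ 2 := by
      have : r₂ = -r₃ := by linear_combination h0
      rw [this]; ring
    linear_combination hr₃ - hr₂ - this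
  obtain ⟨α, γ, ha1, ha3, ha2, ha4, ha6⟩ := exists_coeffs h2 hs
  have he₁ : e₁ = x - r₁ ^ 2 := by linear_combination -hr₁
  have he₂ : e₂ = x - r₂ ^ 2 := by linear_combination -hr₂
  have he₃ : e₃ = x - r₃ ^ 2 := by linear_combination -hr₃
  rw [he₁, he₂, he₃] at ha2 ha4 ha6
  have hy : y = r₁ * r₂ * r₃ - α * x - γ := by
    have h3 := two_eta h2 W x y
    rw [hη, ha1, ha3] at h3
    refine mul_left_cancel₀ h2 ?_
    linear_combination -h3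
  set q : F := x + r₁ * r₂ + r₁ * r₃ + r₂ * r₃ with hq
  set v : F := (r₁ + r₂) * (r₁ + r₃) * (r₂ + r₃) with hv
  set z : F := v - α * q - γ with hz
  have hv0 : v ≠ 0 := mul_ne_zero (mul_ne_zero m12 m13) m23
  have heq : W.toAffine.Equation q z := by
    rw [Affine.equation_iff]
    change z ^ 2 + W.a₁ * q * z + W.a₃ * z = q ^ 3 + W.a₂ * q ^ 2 + W.a₄ * q + W.a₆
    rw [ha1, ha2, ha3, ha4, ha6, hz, hv, hq]
    ring
  have hns : W.toAffine.Nonsingular q z :=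
    (Affine.equation_iff_nonsingular_of_Δ_ne_zero hΔ).1 heq
  have hneg : z - W.toAffine.negY q z = 2 * v := by
    change z - (-z - W.a₁ * q - W.a₃) = 2 * v
    rw [ha1, ha3, hz]
    ring
  have hne : z ≠ W.toAffine.negY q z := by
    intro h0
    rw [← sub_eq_zero, hneg] at h0
    exact mul_ne_zero h2 hv0 h0
  have hsl : W.toAffine.slope q q z z = r₁ + r₂ + r₃ - α := by
    rw [Affine.slope_of_Y_ne rfl hne, hneg]
    rw [div_eq_iff (mul_ne_zero h2 hv0)]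
    change 3 * q ^ 2 + 2 * W.a₂ * q + W.a₄ - W.a₁ * z = _
    rw [ha1, ha2, ha4, hz, hv, hq]
    ring
  have hX : W.toAffine.addX q q (W.toAffine.slope q q z z) = x := by
    rw [hsl]
    change (r₁ + r₂ + r₃ - α) ^ 2 + W.a₁ * (r₁ + r₂ + r₃ - α) - W.a₂ - q - q = x
    rw [ha1, ha2, hq]
    ring
  have hY : W.toAffine.addY q q z (W.toAffine.slope q q z z) = y := by
    unfold Affine.addY Affine.negAddY
    rw [hX, hsl]
    change -((r₁ + r₂ + r₃ - α) * (x - q) + z) - W.a₁ * x - W.a₃ = y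
    rw [ha1, ha3, hy, hz, hv, hq]
    ring
  refine ⟨Affine.Point.some q z hns, ?_⟩
  rw [Affine.Point.add_self_of_Y_ne hne]
  simp only [Affine.Point.some.injEq]
  exact ⟨hX, hY⟩

/-- **Halving.** If `x - e₁`, `x - e₂`, `x - e₃` are squares, the point `(x, y)` is divisible
by `2`. -/
theorem exists_half (h2 : (2 : F) ≠ 0) {W : WeierstrassCurve F} (hΔ : W.Δ ≠ 0) {e₁ e₂ e₃ : F}
    (hs : Splits2 W e₁ e₂ e₃) {x y : F} (h : W.toAffine.Nonsingular x y)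
    (hr₁ : IsSquare (x - e₁)) (hr₂ : IsSquare (x - e₂)) (hr₃ : IsSquare (x - e₃)) :
    ∃ Q : W.toAffine.Point, Q + Q = Affine.Point.some x y h := by
  obtain ⟨r₁, hr₁⟩ := hr₁
  obtain ⟨r₂, hr₂⟩ := hr₂
  obtain ⟨r₃, hr₃⟩ := hr₃
  have h1 : eta W x y ^ 2 = (r₁ * r₂ * r₃) ^ 2 := by
    rw [eta_sq h2 hs h.1, hr₁, hr₂, hr₃]
    ring
  rcases sq_eq_sq_iff_eq_or_eq_neg.1 h1 with h3 | h3
  · exact exists_half_aux h2 hΔ hs h (by rw [hr₁, sq]) (by rw [hr₂, sq]) (by rw [hr₃, sq]) h3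
  · refine exists_half_aux h2 hΔ hs h (r₁ := -r₁) (r₂ := r₂) (r₃ := r₃) (by rw [hr₁]; ring)
      (by rw [hr₂, sq]) (by rw [hr₃, sq]) ?_
    rw [h3]
    ring

end Fermat.Agent.Cor.MordellWeil
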