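import Mathlib
import Fermat.Agent.MW.Selmer
import Fermat.Agent.Corollaries.MordellWeil.Halve

/-!
# The weak Mordell-Weil theorem for an elliptic curve with rational 2-torsion

`K` is a number field and `W` an elliptic curve over `K` whose 2-torsion polynomial splits over
`K`; then `W(K) / 2 W(K)` is finite.
-/

set_option autoImplicit false

namespace Fermat.Agent.Cor.MordellWeil

open WeierstrassCurve NumberField IsDedekindDomain
open Fermat.Agent.CFT.SUnits (ord ord_mul ord_pow valuation_eq_exp_neg_ord ord_eq_zero_iff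
  ord_nonneg_iff finite_ord_ne_zero)

variable {K : Type*} [Field K]

/-! ### Valuations -/

section Val

variable {R : Type*} [CommRing R] [IsDedekindDomain R] [Algebra R K] [IsFractionRing R K]

theorem ord_eq_of_neg {v : HeightOneSpectrum R} {a b d : Kˣ} (h : (a : K) - b = d)
    (hd : ord v d = 0) (ha : ord v a < 0) : ord v b = ord v a := by
  have h1 : v.valuation K (d : K) = 1 := (ord_eq_zero_iff K v d).1 hd
  have h2 : 1 < v.valuation K (a : K) := by
    by_contra hle
    rw [not_lt, ← ord_nonneg_iff] at hle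
    omega
  have hb : (b : K) = a - d := by rw [← h]; ring
  have h3 : v.valuation K (b : K) = v.valuation K (a : K) := by
    rw [hb]
    exact Valuation.map_sub_eq_of_lt_left _ (by rw [h1]; exact h2)
  rw [valuation_eq_exp_neg_ord, valuation_eq_exp_neg_ord, WithZero.exp_inj] at h3
  omega

theorem ord_eq_of_pos {v : HeightOneSpectrum R} {a b d : Kˣ} (h : (a : K) - b = d)
    (hd : ord v d = 0) (ha : 0 < ord v a) : ord v b = 0 := by
  have h1 : v.valuation K (d : K) = 1 := (ord_eq_zero_iff K v d).1 hd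
  have h2 : v.valuation K (a : K) < 1 := by
    rw [valuation_eq_exp_neg_ord, ← WithZero.exp_zero, WithZero.exp_lt_exp]
    omega
  have hb : (b : K) = a - d := by rw [← h]; ring
  rw [ord_eq_zero_iff, hb, ← h1]
  exact Valuation.map_sub_eq_of_lt_right _ (by rw [h1]; exact h2)

/-- If `abc` is a square and `a - b`, `a - c` are units at `v`, then `v(a)` is even. -/
theorem even_ord {v : HeightOneSpectrum R} {a b c d₁ d₂ t : Kˣ} (hab : (a : K) - b = d₁)
    (hac : (a : K) - c = d₂) (h₁ : ord v d₁ = 0) (h₂ : ord v d₂ = 0) (ht : a * b * c = t ^ 2) :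
    (2 : ℤ) ∣ ord v a := by
  have h3 : ord v a + ord v b + ord v c = 2 * ord v t := by
    have := congrArg (ord v) ht
    rw [ord_mul, ord_mul, ord_pow] at this
    exact_mod_cast this
  rcases lt_trichotomy (ord v a) 0 with h | h | h
  · rw [ord_eq_of_neg hab h₁ h, ord_eq_of_neg hac h₂ h] at h3
    omega
  · rw [h]
    exact dvd_zero _
  · rw [ord_eq_of_pos hab h₁ h, ord_eq_of_pos hac h₂ h] at h3
    omega

end Val

/-! ### The 2-torsion -/

section Tors

variable [DecidableEq K] {W : WeierstrassCurve K} {e₁ e₂ e₃ : K}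

omit [DecidableEq K] in
theorem two_ne_of_eta {x y : K} (h2 : (2 : K) ≠ 0) :
    y = W.toAffine.negY x y ↔ eta W x y = 0 := by
  have h := two_eta h2 W x y
  constructor
  · intro hy
    have h3 : 2 * eta W x y = 0 := by
      rw [h]
      change y = -y - W.a₁ * x - W.a₃ at hy
      linear_combination hy
    exact (mul_eq_zero.1 h3).resolve_left h2
  · intro h0
    rw [h0, mul_zero] at h
    change y = -y - W.a₁ * x - W.a₃
    linear_combination -h

/-- A point outside the kernel of multiplication by `2` is affine with `η ≠ 0`. -/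
theorem exists_of_notMem (h2 : (2 : K) ≠ 0) {P : W.toAffine.Point} (hP : P + P ≠ 0) :
    ∃ (x y : K) (h : W.toAffine.Nonsingular x y), P = Affine.Point.some x y h ∧
      eta W x y ≠ 0 := by
  cases P with
  | zero =>
    exact absurd (add_zero (0 : W.toAffine.Point)) hP
  | some x y h =>
    refine ⟨x, y, h, rfl, fun h0 => hP ?_⟩
    exact Affine.Point.add_self_of_Y_eq ((two_ne_of_eta h2).2 h0)

/-- The `x`-coordinate, `none` at infinity. -/
def xo (P : W.toAffine.Point) : Option K :=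
  match P with
  | Affine.Point.zero => none
  | Affine.Point.some x _ _ => some x

omit [DecidableEq K] in
theorem eta_of_double_zero [DecidableEq K] (h2 : (2 : K) ≠ 0) {x y : K}
    {h : W.toAffine.Nonsingular x y}
    (hP : Affine.Point.some x y h + Affine.Point.some x y h = 0) : eta W x y = 0 := by
  by_contra h0
  have hne : y ≠ W.toAffine.negY x y := fun hy => h0 ((two_ne_of_eta h2).1 hy)
  rw [Affine.Point.add_self_of_Y_ne hne] at hP
  exact Affine.Point.some_ne_zero _ hP

theorem finite_two_torsion (h2 : (2 : K) ≠ 0) (hs : Splits2 W e₁ e₂ e₃) :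
    {P : W.toAffine.Point | P + P = 0}.Finite := by
  refine Set.Finite.of_finite_image (f := xo (W := W)) ?_ ?_
  · refine Set.Finite.subset (s := {none, some e₁, some e₂, some e₃}) (by simp) ?_
    rintro _ ⟨P, hP, rfl⟩
    cases P with
    | zero => simp [xo]
    | some x y h =>
      have h0 := eta_of_double_zero h2 (W := W) (h := h) hP
      have h1 := eta_sq h2 hs h.1
      rw [h0] at h1
      have h3 : (x - e₁) * (x - e₂) * (x - e₃) = 0 := by rw [← h1]; ring
      rcases mul_eq_zero.1 h3 with h4 | h4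
      · rcases mul_eq_zero.1 h4 with h5 | h5
        · simp [xo, sub_eq_zero.1 h5]
        · simp [xo, sub_eq_zero.1 h5]
      · simp [xo, sub_eq_zero.1 h4]
  · intro P hP Q hQ hPQ
    cases P with
    | zero =>
      cases Q with
      | zero => rfl
      | some x y h => simp [xo] at hPQ
    | some x y h =>
      cases Q with
      | zero => simp [xo] at hPQ
      | some x' y' h' =>
        simp only [xo, Option.some.injEq] at hPQ
        subst hPQ
        have h0 := eta_of_double_zero h2 (W := W) (h := h) hP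
        have h0' := eta_of_double_zero h2 (W := W) (h := h') hQ
        have : y = y' := by
          unfold eta at h0 h0'
          linear_combination h0 - h0'
        subst this
        rfl

end Tors

/-! ### The weak Mordell-Weil theorem -/

section Weak

variable [NumberField K] [DecidableEq K] {W : WeierstrassCurve K} {e₁ e₂ e₃ : K}

/-- The 2-descent datum of a point: `x - e_i` is `f_i` up to a square. -/
def Datum (W : WeierstrassCurve K) (e₁ e₂ e₃ : K) (f : Kˣ × Kˣ × Kˣ) (P : W.toAffine.Point) :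
    Prop :=
  ∃ (x y : K) (h : W.toAffine.Nonsingular x y), P = Affine.Point.some x y h ∧
    (∃ c : Kˣ, x - e₁ = f.1 * c ^ 2) ∧ (∃ c : Kˣ, x - e₂ = f.2.1 * c ^ 2) ∧
    (∃ c : Kˣ, x - e₃ = f.2.2 * c ^ 2)

omit [NumberField K] [DecidableEq K] in
theorem isSquare_of_prod {a b c f : K} {s t : Kˣ} (hf : f ≠ 0) (ha : a = f * s ^ 2)
    (hb : b = f * t ^ 2) (h : IsSquare (a * b * c)) : IsSquare c := by
  obtain ⟨r, hr⟩ := h
  refine ⟨r / (f * s * t), ?_⟩
  have hs : (s : K) ≠ 0 := s.ne_zero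
  have ht : (t : K) ≠ 0 := t.ne_zero
  rw [ha, hb] at hr
  field_simp
  linear_combination hr

omit [NumberField K] in
/-- Two points with the same datum have sum divisible by `2`, or sum killed by `2`. -/
theorem add_mem_of_datum (h2 : (2 : K) ≠ 0) (hΔ : W.Δ ≠ 0) (hs : Splits2 W e₁ e₂ e₃)
    {f : Kˣ × Kˣ × Kˣ} {P Q : W.toAffine.Point} (hP : Datum W e₁ e₂ e₃ f P)
    (hQ : Datum W e₁ e₂ e₃ f Q) (hPQ : P + Q ≠ 0) : ∃ R, R + R = P + Q := by
  obtain ⟨x, y, h, rfl, ⟨c₁, hc₁⟩, ⟨c₂, hc₂⟩, ⟨c₃, hc₃⟩⟩ := hP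
  obtain ⟨x', y', h', rfl, ⟨c₁', hc₁'⟩, ⟨c₂', hc₂'⟩, ⟨c₃', hc₃'⟩⟩ := hQ
  by_cases hxy : x = x' ∧ y = W.toAffine.negY x' y'
  · exact absurd (Affine.Point.add_of_Y_eq hxy.1 hxy.2) hPQ
  · rw [Affine.Point.add_some hxy]
    refine exists_half h2 hΔ hs _ ?_ ?_ ?_
    · exact isSquare_of_prod f.1.ne_zero hc₁ hc₁' (isSquare_line h2 (root₁ hs) h.1 h'.1 hxy)
    · exact isSquare_of_prod f.2.1.ne_zero hc₂ hc₂' (isSquare_line h2 (root₂ hs) h.1 h'.1 hxy)
    · exact isSquare_of_prod f.2.2.ne_zero hc₃ hc₃' (isSquare_line h2 (root₃ hs) h.1 h'.1 hxy)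

/-- The data of the points outside the 2-torsion lie in a finite set. -/
theorem exists_finite_data (hΔ : W.Δ ≠ 0) (hs : Splits2 W e₁ e₂ e₃) :
    ∃ Fr : Set (Kˣ × Kˣ × Kˣ), Fr.Finite ∧ ∀ P : W.toAffine.Point, P + P ≠ 0 →
      ∃ f ∈ Fr, Datum W e₁ e₂ e₃ f P := by
  have h2 : (2 : K) ≠ 0 := two_ne_zero
  obtain ⟨n12, n13, n23⟩ := ne_of_splits h2 hΔ hs
  let d12 : Kˣ := Units.mk0 (e₁ - e₂) (sub_ne_zero.2 n12)
  let d13 : Kˣ := Units.mk0 (e₁ - e₃) (sub_ne_zero.2 n13)
  let d23 : Kˣ := Units.mk0 (e₂ - e₃) (sub_ne_zero.2 n23)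
  let S : Set (HeightOneSpectrum (𝓞 K)) :=
    {v | ord v d12 ≠ 0} ∪ {v | ord v d13 ≠ 0} ∪ {v | ord v d23 ≠ 0}
  have hS : S.Finite :=
    ((finite_ord_ne_zero K d12).union (finite_ord_ne_zero K d13)).union (finite_ord_ne_zero K d23)
  obtain ⟨G, hG, hGr⟩ := MW.exists_finite_reps K S hS
  refine ⟨G ×ˢ G ×ˢ G, hG.prod (hG.prod hG), fun P hP => ?_⟩
  obtain ⟨x, y, h, rfl, hη⟩ := exists_of_notMem h2 hP
  have h1 := eta_sq h2 hs h.1
  have h3 : (x - e₁) * (x - e₂) * (x - e₃) ≠ 0 := by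
    rw [← h1]
    exact pow_ne_zero _ hη
  have k1 : x - e₁ ≠ 0 := fun h0 => h3 (by rw [h0]; ring)
  have k2 : x - e₂ ≠ 0 := fun h0 => h3 (by rw [h0]; ring)
  have k3 : x - e₃ ≠ 0 := fun h0 => h3 (by rw [h0]; ring)
  let a : Kˣ := Units.mk0 (x - e₁) k1
  let b : Kˣ := Units.mk0 (x - e₂) k2
  let c : Kˣ := Units.mk0 (x - e₃) k3
  let t : Kˣ := Units.mk0 (eta W x y) hη
  have hneg : ∀ (v : HeightOneSpectrum (𝓞 K)) (u : Kˣ), ord v (-u) = ord v u := by
    intro v u
    have h5 : v.valuation K ((-u : Kˣ) : K) = v.valuation K (u : K) := by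
      rw [Units.val_neg, Valuation.map_neg]
    rw [valuation_eq_exp_neg_ord, valuation_eq_exp_neg_ord, WithZero.exp_inj] at h5
    omega
  have hSv : ∀ v ∉ S, ord v d12 = 0 ∧ ord v d13 = 0 ∧ ord v d23 = 0 := by
    intro v hv
    simp only [S, Set.mem_union, Set.mem_ofPred_eq, not_or, not_not] at hv
    exact ⟨hv.1.1, hv.1.2, hv.2⟩
  obtain ⟨f₁, hf₁, c₁, hc₁⟩ := hGr a fun v hv => by
    obtain ⟨s12, s13, s23⟩ := hSv v hv
    refine even_ord (a := a) (b := b) (c := c) (d₁ := -d12) (d₂ := -d13) (t := t) ?_ ?_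
      (by rw [hneg]; exact s12) (by rw [hneg]; exact s13) ?_
    · change (x - e₁) - (x - e₂) = -(e₁ - e₂)
      ring
    · change (x - e₁) - (x - e₃) = -(e₁ - e₃)
      ring
    · apply Units.ext
      change (x - e₁) * (x - e₂) * (x - e₃) = eta W x y ^ 2
      exact h1.symm
  obtain ⟨f₂, hf₂, c₂, hc₂⟩ := hGr b fun v hv => by
    obtain ⟨s12, s13, s23⟩ := hSv v hv
    refine even_ord (a := b) (b := a) (c := c) (d₁ := d12) (d₂ := -d23) (t := t) ?_ ?_
      s12 (by rw [hneg]; exact s23) ?_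
    · change (x - e₂) - (x - e₁) = e₁ - e₂
      ring
    · change (x - e₂) - (x - e₃) = -(e₂ - e₃)
      ring
    · apply Units.ext
      change (x - e₂) * (x - e₁) * (x - e₃) = eta W x y ^ 2
      rw [h1]
      ring
  obtain ⟨f₃, hf₃, c₃, hc₃⟩ := hGr c fun v hv => by
    obtain ⟨s12, s13, s23⟩ := hSv v hv
    refine even_ord (a := c) (b := a) (c := b) (d₁ := d13) (d₂ := d23) (t := t) ?_ ?_
      s13 s23 ?_
    · change (x - e₃) - (x - e₁) = e₁ - e₃
      ring
    · change (x - e₃) - (x - e₂) = e₂ - e₃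
      ring
    · apply Units.ext
      change (x - e₃) * (x - e₁) * (x - e₂) = eta W x y ^ 2
      rw [h1]
      ring
  refine ⟨(f₁, f₂, f₃), ⟨hf₁, hf₂, hf₃⟩, x, y, h, rfl, ⟨c₁, ?_⟩, ⟨c₂, ?_⟩, ⟨c₃, ?_⟩⟩
  · exact congrArg Units.val hc₁
  · exact congrArg Units.val hc₂
  · exact congrArg Units.val hc₃

/-- **The weak Mordell-Weil theorem** for split 2-torsion. -/
theorem finiteIndex_two (hΔ : W.Δ ≠ 0) (hs : Splits2 W e₁ e₂ e₃) :
    (nsmulAddMonoidHom (α := W.toAffine.Point) 2).range.FiniteIndex := by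
  classical
  have h2 : (2 : K) ≠ 0 := two_ne_zero
  obtain ⟨Fr, hFr, hdat⟩ := exists_finite_data hΔ hs
  set D : AddSubgroup W.toAffine.Point := (nsmulAddMonoidHom (α := W.toAffine.Point) 2).range
    with hD
  set T : AddSubgroup W.toAffine.Point := (nsmulAddMonoidHom (α := W.toAffine.Point) 2).ker
    with hT
  have hTmem : ∀ P, P ∈ T ↔ P + P = 0 := fun P => by
    rw [hT, AddMonoidHom.mem_ker]
    change 2 • P = 0 ↔ _
    rw [two_nsmul]
  have hDmem : ∀ P, P + P ∈ D := fun P => ⟨P, by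
    change 2 • P = _
    rw [two_nsmul]⟩
  have hTfin : Finite T := by
    have h := finite_two_torsion h2 hs
    have h' : (T : Set W.toAffine.Point) = {P | P + P = 0} := by
      ext P
      exact hTmem P
    rw [← h'] at h
    exact h.to_subtype
  -- the index of `T ⊔ D`
  have hkey : ∀ P Q : W.toAffine.Point, P + P ≠ 0 → Q + Q ≠ 0 → ∀ f, Datum W e₁ e₂ e₃ f P →
      Datum W e₁ e₂ e₃ f Q → P - Q ∈ T ⊔ D := by
    intro P Q _ _ f hfP hfQ
    have h1 : P + Q ∈ D := by
      by_cases h0 : P + Q = 0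
      · rw [h0]
        exact D.zero_mem
      · obtain ⟨R, hR⟩ := add_mem_of_datum h2 hΔ hs hfP hfQ h0
        rw [← hR]
        exact hDmem R
    have h3 : P - Q = (P + Q) - (Q + Q) := by abel
    rw [h3]
    exact AddSubgroup.mem_sup_right (D.sub_mem h1 (hDmem Q))
  have hfinq : Finite (W.toAffine.Point ⧸ (T ⊔ D)) := by
    have : Finite Fr := hFr.to_subtype
    have hch : ∀ P : W.toAffine.Point, ∃ o : Option Fr, (o = none → P + P = 0) ∧
        ∀ f : Fr, o = some f → P + P ≠ 0 ∧ Datum W e₁ e₂ e₃ f P := by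
      intro P
      by_cases hP : P + P = 0
      · exact ⟨none, fun _ => hP, fun f hf => by simp at hf⟩
      · obtain ⟨f, hf, hd⟩ := hdat P hP
        refine ⟨some ⟨f, hf⟩, fun h => by simp at h, fun f' hf' => ?_⟩
        simp only [Option.some.injEq] at hf'
        subst hf'
        exact ⟨hP, hd⟩
    choose o ho hs' using hch
    refine Finite.of_injective (fun q : W.toAffine.Point ⧸ (T ⊔ D) => o q.out) ?_
    intro q q' (h : o q.out = o q'.out)
    have hmem : q.out - q'.out ∈ T ⊔ D := by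
      cases hq : o q.out with
      | none =>
        have h3 := ho _ hq
        have h4 := ho _ (h ▸ hq)
        exact AddSubgroup.mem_sup_left (T.sub_mem ((hTmem _).2 h3) ((hTmem _).2 h4))
      | some f =>
        obtain ⟨h3, h5⟩ := hs' _ _ hq
        obtain ⟨h4, h6⟩ := hs' _ _ (h ▸ hq)
        exact hkey _ _ h3 h4 f h5 h6
    have h7 : (QuotientAddGroup.mk q'.out : W.toAffine.Point ⧸ (T ⊔ D)) =
        QuotientAddGroup.mk q.out := by
      rw [QuotientAddGroup.eq, neg_add_eq_sub]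
      exact hmem
    rw [QuotientAddGroup.out_eq', QuotientAddGroup.out_eq'] at h7
    exact h7.symm
  have hi1 : (T ⊔ D).index ≠ 0 := by
    rw [AddSubgroup.index]
    exact Nat.card_ne_zero.2 ⟨⟨0⟩, hfinq⟩
  have hi2 : D.relIndex (T ⊔ D) ≠ 0 := by
    rw [AddSubgroup.relIndex_sup_right]
    have : Finite (T ⧸ D.addSubgroupOf T) := inferInstance
    exact Nat.card_ne_zero.2 ⟨⟨0⟩, this⟩
  refine ⟨?_⟩
  rw [← AddSubgroup.relIndex_mul_index (le_sup_right : D ≤ T ⊔ D)]
  exact mul_ne_zero hi2 hi1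

end Weak

end Fermat.Agent.Cor.MordellWeil
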