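import Mathlib
import Fermat.Agent.Corollaries.MordellWeil.Weak
import Fermat.Agent.Corollaries.MordellWeil.Par

/-!
# The Mordell-Weil theorem for elliptic curves over number fields

The group of points of an elliptic curve over a number field is finitely generated.
-/

set_option autoImplicit false

namespace Fermat.Agent.Cor.MordellWeil

open WeierstrassCurve

/-- A subgroup of a finitely generated abelian group is finitely generated. -/
theorem fg_of_injective {A B : Type*} [AddCommGroup A] [AddCommGroup B] (f : A →+ B)
    (hf : Function.Injective f) (hB : AddGroup.FG B) : AddGroup.FG A := by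
  have h1 : Module.Finite ℤ B := Module.Finite.iff_addGroup_fg.2 hB
  have h2 : Module.Finite ℤ A := Module.Finite.of_injective f.toIntLinearMap hf
  exact Module.Finite.iff_addGroup_fg.1 h2

/-- The Mordell-Weil theorem if the 2-torsion polynomial splits. -/
theorem fg_of_splits {K : Type*} [Field K] [NumberField K] [DecidableEq K]
    (W : WeierstrassCurve K) [W.IsElliptic] {e₁ e₂ e₃ : K} (hs : Splits2 W e₁ e₂ e₃) :
    AddGroup.FG W.toAffine.Point :=
  fg_of_finiteIndex W (finiteIndex_two W.isUnit_Δ.ne_zero hs)

/-- The 2-torsion polynomial splits over a finite extension. -/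
theorem splits_splittingField {K : Type*} [Field K] [CharZero K] (W : WeierstrassCurve K) :
    ∃ e₁ e₂ e₃ : W.twoTorsionPolynomial.toPoly.SplittingField,
      Splits2 (W.map (algebraMap K W.twoTorsionPolynomial.toPoly.SplittingField)) e₁ e₂ e₃ := by
  set L := W.twoTorsionPolynomial.toPoly.SplittingField
  have ha : W.twoTorsionPolynomial.a ≠ 0 := by
    change (4 : K) ≠ 0
    norm_num
  have hsp : (W.twoTorsionPolynomial.toPoly.map (algebraMap K L)).Splits :=
    Polynomial.SplittingField.splits _
  obtain ⟨x, y, z, hxyz⟩ := (Cubic.splits_iff_roots_eq_three ha).1 hsp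
  have hb := Cubic.b_eq_three_roots ha hxyz
  have hc := Cubic.c_eq_three_roots ha hxyz
  have hd := Cubic.d_eq_three_roots ha hxyz
  have h4 : algebraMap K L W.twoTorsionPolynomial.a = 4 := by
    change algebraMap K L 4 = 4
    rw [map_ofNat]
  rw [h4] at hb hc hd
  refine ⟨x, y, z, ⟨?_, ?_, ?_⟩⟩
  · rw [map_b₂]
    change algebraMap K L W.b₂ = _ at hb
    rw [hb]
    ring
  · rw [map_b₄]
    change algebraMap K L (2 * W.b₄) = _ at hc
    rw [map_mul, map_ofNat] at hc
    have h2 : (2 : L) ≠ 0 := by
      rw [← map_ofNat (algebraMap K L) 2]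
      exact (map_ne_zero _).2 two_ne_zero
    refine mul_left_cancel₀ h2 ?_
    rw [hc]
    ring
  · rw [map_b₆]
    change algebraMap K L W.b₆ = _ at hd
    rw [hd]
    ring

/-- **The Mordell-Weil theorem** for elliptic curves over number fields (points of the base
change of `W` to `K` itself). -/
theorem fg_baseChange (K : Type*) [Field K] [NumberField K] [DecidableEq K]
    (W : WeierstrassCurve K) [W.IsElliptic] : AddGroup.FG (W⁄K).toAffine.Point := by
  classical
  let L := W.twoTorsionPolynomial.toPoly.SplittingField
  have : FiniteDimensional K L := inferInstance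
  have : CharZero L := charZero_of_injective_algebraMap (algebraMap K L).injective
  have : NumberField L := NumberField.of_module_finite K L
  obtain ⟨e₁, e₂, e₃, hs⟩ := splits_splittingField W
  have hE : (W⁄L).IsElliptic := inferInstanceAs (W.map (algebraMap K L)).IsElliptic
  have h1 : AddGroup.FG (W⁄L).toAffine.Point := fg_of_splits (W⁄L) hs
  exact fg_of_injective (Affine.Point.map (W' := W) (Algebra.ofId K L))
    (Affine.Point.map_injective _) h1

/-- **The Mordell-Weil theorem.** The group of points of an elliptic curve over a number field is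
finitely generated. -/
theorem mordell_weil (K : Type*) [Field K] [NumberField K] [DecidableEq K]
    (W : WeierstrassCurve K) [W.IsElliptic] : AddGroup.FG W.toAffine.Point :=
  fg_baseChange K W

/-- The Mordell-Weil theorem over a finite extension `F` of the number field `K` over which the
curve is defined: `W(F)` is finitely generated. -/
theorem mordell_weil_extension (K : Type*) [Field K] (F : Type*) [Field F] [NumberField F]
    [DecidableEq F] [Algebra K F] (W : WeierstrassCurve K) [W.IsElliptic] :
    AddGroup.FG (W⁄F).toAffine.Point := by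
  have hE : (W⁄F).IsElliptic := inferInstanceAs (W.map (algebraMap K F)).IsElliptic
  exact mordell_weil F (W⁄F)

/-- The structure of the Mordell-Weil group: a finite group times a free abelian group of finite
rank. -/
theorem exists_equiv (K : Type*) [Field K] [NumberField K] [DecidableEq K]
    (W : WeierstrassCurve K) [W.IsElliptic] :
    ∃ (r : ℕ) (T : Type) (_ : AddCommGroup T) (_ : Finite T),
      Nonempty (W.toAffine.Point ≃+ T × (Fin r → ℤ)) := by
  classical
  have h := mordell_weil K W
  obtain ⟨r, ι, hι, p, hp, e, ⟨E⟩⟩ :=
    AddCommGroup.equiv_free_prod_directSum_zmod W.toAffine.Point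
  have hne : ∀ i, NeZero (p i ^ e i) := fun i => ⟨pow_ne_zero _ (hp i).ne_zero⟩
  have hfin : Finite (DirectSum ι fun i => ZMod (p i ^ e i)) :=
    Finite.of_equiv _ (DirectSum.addEquivProd fun i => ZMod (p i ^ e i)).symm.toEquiv
  refine ⟨r, DirectSum ι fun i => ZMod (p i ^ e i), inferInstance, hfin, ⟨?_⟩⟩
  exact (E.trans AddEquiv.prodComm).trans
    (AddEquiv.prodCongr (AddEquiv.refl _)
      (Finsupp.linearEquivFunOnFinite ℤ ℤ (Fin r)).toAddEquiv)

end Fermat.Agent.Cor.MordellWeil
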