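import Fermat.Agent.Corollaries.MordellWeil.Par

/-!
# Points whose abscissa lies in the base field

`W` an elliptic curve over a field `K`, `F` an extension of `K`.

* `dup W u`: the duplication map on homogeneous coordinates of the projective line over `K`;
* `exists_four_mul_le_dup`: `4 h(u) - C ≤ h(dup W u)`;
* `finite_torsion_abscissa`: **if `K` is a number field, then only finitely many elements of `K`
  are abscissas of torsion points of `E(F)`**, for every extension `F` of `K` (for example an
  algebraic closure; the points themselves are defined over quadratic extensions of `K`);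
* `mulHeight₁_natCast_le`: the height of a natural number `n` over a number field `L` is at most
  `n ^ [L : ℚ]`.
-/

namespace Fermat.Agent.Cor.MordellWeil

open WeierstrassCurve WeierstrassCurve.Affine MvPolynomial Height

section Dup

variable {K : Type*} [Field K] (W : WeierstrassCurve K)

/-- The duplication map on homogeneous coordinates of the projective line. -/
def dup (u : Fin 2 → K) : Fin 2 → K :=
  ![(u 0 * u 0) ^ 2 - W.b₄ * (u 0 * u 0) * (u 1 * u 1) -
      W.b₆ * (u 0 * u 1 + u 1 * u 0) * (u 1 * u 1) - W.b₈ * (u 1 * u 1) ^ 2,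
    2 * (u 0 * u 1 + u 1 * u 0) * (u 0 * u 0) + W.b₂ * (u 0 * u 0) * (u 1 * u 1) +
      W.b₄ * (u 0 * u 1 + u 1 * u 0) * (u 1 * u 1) + W.b₆ * (u 1 * u 1) ^ 2]

lemma eval_addSubMap_dup (u : Fin 2 → K) :
    (fun i => (addSubMap W i).eval ![u 0 * u 0, u 0 * u 1 + u 1 * u 0, u 1 * u 1]) =
      ![dup W u 0, dup W u 1, 0] := by
  rw [eval_addSubMap]
  funext i
  fin_cases i
  · rfl
  · rfl
  · simp
    ring

/-- The duplication map multiplies the height by four, up to a bounded quantity. -/
theorem exists_four_mul_le_dup [AdmissibleAbsValues K] [W.IsElliptic] :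
    ∃ C, ∀ u : Fin 2 → K, u ≠ 0 → 4 * logHeight u - C ≤ logHeight (dup W u) := by
  obtain ⟨C₁, h₁⟩ := abs_logHeight_sym2_sub_le K
  obtain ⟨C₂, h₂⟩ := abs_logHeight_addSubMap_sub_two_mul_logHeight_le W
  have e : ∀ v : Fin 2 → K, ![v 0, v 1] = v := fun v => by
    funext i
    fin_cases i <;> rfl
  refine ⟨2 * C₁ + C₂, fun u hu => ?_⟩
  have hu' : ![u 0, u 1] ≠ 0 := by rwa [e]
  have h3 := h₁ (a := u 0) (b := u 1) (c := u 0) (d := u 1) hu' hu'
  have h4 := h₂ ![u 0 * u 0, u 0 * u 1 + u 1 * u 0, u 1 * u 1]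
  rw [eval_addSubMap_dup, logHeight_cons_cons_cons_zero] at h4
  have h5 : logHeight ![dup W u 0, dup W u 1] = logHeight (dup W u) := by rw [e]
  rw [h5] at h4
  rw [e] at h3
  have h6 := abs_le.mp h3
  have h7 := abs_le.mp h4
  linarith [h6.1, h7.1]

end Dup

section Rep

variable {K F : Type*} [Field K] [Field F] [Algebra K F] {W : WeierstrassCurve K}

/-- The abscissa of the point `P` of `E(F)` has the homogeneous coordinates `u` in `K`. -/
def Rep (u : Fin 2 → K) (P : (W⁄F).toAffine.Point) : Prop :=
  ∃ a : F, a ≠ 0 ∧ P.xRep = a • fun i => algebraMap K F (u i)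

lemma Rep.ne_zero {u : Fin 2 → K} {P : (W⁄F).toAffine.Point} (h : Rep u P) : u ≠ 0 := by
  rintro rfl
  obtain ⟨a, -, h⟩ := h
  refine P.xRep_ne_zero (h.trans ?_)
  funext i
  simp

/-- Homogeneous coordinates of the same abscissa have the same height. -/
lemma Rep.logHeight_eq [AdmissibleAbsValues K] {u u' : Fin 2 → K} {P : (W⁄F).toAffine.Point}
    (h : Rep u P) (h' : Rep u' P) : logHeight u = logHeight u' := by
  obtain ⟨i, hi⟩ := Function.ne_iff.mp h'.ne_zero
  obtain ⟨a, ha, h⟩ := h
  obtain ⟨a', ha', h'⟩ := h'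
  have hi' : u' i ≠ 0 := hi
  have key : ∀ j, a * algebraMap K F (u j) = a' * algebraMap K F (u' j) := fun j => by
    have := congrFun (h.symm.trans h') j
    simpa using this
  -- the factor is in `K`
  have hui : u i ≠ 0 := by
    intro h0
    have := key i
    rw [h0, map_zero, mul_zero, eq_comm, mul_eq_zero] at this
    exact this.elim ha' fun h1 => hi' ((map_eq_zero _).mp h1)
  have hu : u = (u i / u' i) • u' := by
    funext j
    apply (algebraMap K F).injective
    rw [Pi.smul_apply, smul_eq_mul, map_mul, map_div₀]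
    have h1 := key i
    have h2 := key j
    have h3 : algebraMap K F (u' i) ≠ 0 := (map_ne_zero _).mpr hi'
    field_simp
    refine mul_left_cancel₀ ha ?_
    linear_combination algebraMap K F (u' i) * h2 - algebraMap K F (u' j) * h1
  rw [hu, logHeight_smul_eq_logHeight _ (div_ne_zero hui hi')]

/-- The duplication map computes the abscissa of the double. -/
lemma Rep.dup [DecidableEq F] [W.IsElliptic] {u : Fin 2 → K} {P : (W⁄F).toAffine.Point}
    (h : Rep u P) : Rep (dup W u) (P + P) := by
  have hE : (W⁄F).IsElliptic := inferInstanceAs (W.map (algebraMap K F)).IsElliptic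
  obtain ⟨c, hc, hcP⟩ := addSubMap_sym2x (W⁄F) P P
  obtain ⟨a, ha, hP⟩ := h
  have p0 : P.xRep 0 = a * algebraMap K F (u 0) := by rw [hP]; rfl
  have p1 : P.xRep 1 = a * algebraMap K F (u 1) := by rw [hP]; rfl
  have e1 : P.sym2x P = ![P.xRep 0 * P.xRep 0, P.xRep 0 * P.xRep 1 + P.xRep 1 * P.xRep 0,
      P.xRep 1 * P.xRep 1] := rfl
  have e2 : (P + P).sym2x (0 : (W⁄F).toAffine.Point) =
      ![(P + P).xRep 0, (P + P).xRep 1, 0] := by
    simp only [Point.sym2x, Point.xRep_zero]
    funext i
    fin_cases i <;> simp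
  have b2 : (W⁄F).b₂ = algebraMap K F W.b₂ := map_b₂ W (algebraMap K F)
  have b4 : (W⁄F).b₄ = algebraMap K F W.b₄ := map_b₄ W (algebraMap K F)
  have b6 : (W⁄F).b₆ = algebraMap K F W.b₆ := map_b₆ W (algebraMap K F)
  have b8 : (W⁄F).b₈ = algebraMap K F W.b₈ := map_b₈ W (algebraMap K F)
  rw [sub_self, e1, e2, eval_addSubMap, p0, p1, b2, b4, b6, b8] at hcP
  have k0 := congrFun hcP 0
  have k1 := congrFun hcP 1
  simp only [Pi.smul_apply, smul_eq_mul, Matrix.cons_val_zero, Matrix.cons_val_one] at k0 k1
  refine ⟨c⁻¹ * a ^ 4, mul_ne_zero (inv_ne_zero hc) (pow_ne_zero 4 ha), ?_⟩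
  funext i
  fin_cases i
  · refine mul_left_cancel₀ hc (k0.symm.trans ?_)
    simp only [MordellWeil.dup, Fin.zero_eta, Pi.smul_apply, smul_eq_mul, Matrix.cons_val_zero,
      map_sub, map_add, map_mul, map_pow]
    field_simp
  · refine mul_left_cancel₀ hc (k1.symm.trans ?_)
    simp only [MordellWeil.dup, Fin.mk_one, Pi.smul_apply, smul_eq_mul, Matrix.cons_val_one,
      Matrix.cons_val_zero, map_add, map_mul, map_pow, map_ofNat]
    field_simp

lemma Rep.iterate [DecidableEq F] [W.IsElliptic] {u : Fin 2 → K} {P : (W⁄F).toAffine.Point}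
    (h : Rep u P) (n : ℕ) : Rep ((MordellWeil.dup W)^[n] u) ((2 ^ n) • P) := by
  induction n with
  | zero => simpa using h
  | succ n ih =>
    rw [Function.iterate_succ', Function.comp_apply, pow_succ, mul_smul, two_nsmul, smul_add]
    exact ih.dup

/-- The height of the abscissa of a torsion point is bounded. -/
theorem Rep.logHeight_le [AdmissibleAbsValues K] [DecidableEq F] [W.IsElliptic] {C : ℝ}
    (hC : ∀ u : Fin 2 → K, u ≠ 0 → 4 * logHeight u - C ≤ logHeight (MordellWeil.dup W u))
    {u : Fin 2 → K} {P : (W⁄F).toAffine.Point} (h : Rep u P) (hP : IsOfFinAddOrder P) :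
    logHeight u ≤ C / 3 := by
  classical
  -- the heights of the iterates form a finite set
  set f : ℕ → ℝ := fun n => logHeight ((MordellWeil.dup W)^[n] u) with hf
  have hfin : (Set.range f).Finite := by
    have h1 : (AddSubgroup.zmultiples P : Set (W⁄F).toAffine.Point).Finite :=
      hP.finite_zmultiples
    refine (h1.image fun Q => if hQ : ∃ u' : Fin 2 → K, Rep u' Q then logHeight hQ.choose
      else 0).subset ?_
    rintro _ ⟨n, rfl⟩
    refine ⟨(2 ^ n) • P, AddSubgroup.nsmul_mem _ (AddSubgroup.mem_zmultiples P) _, ?_⟩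
    have hQ : ∃ u' : Fin 2 → K, Rep u' ((2 ^ n) • P) := ⟨_, h.iterate n⟩
    simp only [dif_pos hQ]
    exact hQ.choose_spec.logHeight_eq (h.iterate n)
  obtain ⟨M, ⟨n, hn⟩, hM⟩ := hfin.exists_maximalFor id _ ⟨f 0, ⟨0, rfl⟩⟩
  have hmax : ∀ m, f m ≤ f n := by
    intro m
    by_contra hlt
    push Not at hlt
    have := hM ⟨m, rfl⟩ (by rw [← hn]; exact hlt.le)
    simp only [id, ← hn] at this
    exact absurd hlt (not_lt.mpr this)
  have h2 : 4 * f n - C ≤ f (n + 1) := by
    rw [hf]
    simp only [Function.iterate_succ', Function.comp_apply]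
    exact hC _ (h.iterate n).ne_zero
  have h3 := hmax (n + 1)
  have h4 := hmax 0
  have h5 : f 0 = logHeight u := rfl
  rw [← h5]
  linarith

end Rep

section NumberField

variable {K : Type*} [Field K] [NumberField K] (W : WeierstrassCurve K) [W.IsElliptic]
  (F : Type*) [Field F] [Algebra K F] [DecidableEq F]

/-- **Only finitely many elements of the number field `K` are abscissas of torsion points** of
`E(F)`, for every extension `F` of `K`. -/
theorem finite_torsion_abscissa :
    {x : K | ∃ (y : F) (h : (W⁄F).toAffine.Nonsingular (algebraMap K F x) y),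
      IsOfFinAddOrder (Point.some (algebraMap K F x) y h)}.Finite := by
  obtain ⟨C, hC⟩ := exists_four_mul_le_dup W
  refine (NumberField.finite_setOfPred_logHeight₁_le K (C / 3)).subset ?_
  rintro x ⟨y, h, hfin⟩
  have hrep : Rep ![x, 1] (Point.some (algebraMap K F x) y h) := by
    refine ⟨1, one_ne_zero, ?_⟩
    rw [Point.xRep_some, one_smul]
    funext i
    fin_cases i <;> simp
  have h1 := hrep.logHeight_le hC hfin
  change logHeight₁ x ≤ C / 3
  rwa [logHeight₁_eq_logHeight]

omit [NumberField K] in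
/-- The height of a natural number `n` over a number field `L` is at most `n ^ [L : ℚ]`. -/
theorem mulHeight₁_natCast_le [NumberField K] {n : ℕ} (hn : n ≠ 0) :
    mulHeight₁ (n : K) ≤ (n : ℝ) ^ Module.finrank ℚ K := by
  rw [NumberField.mulHeight₁_eq]
  have h1 : ∀ v : NumberField.InfinitePlace K, max (v (n : K)) 1 = n := by
    intro v
    have h2 : v (n : K) = n := by simp
    rw [h2, max_eq_left]
    exact_mod_cast Nat.one_le_iff_ne_zero.mpr hn
  have h2 : ∀ v : NumberField.FinitePlace K, max (v (n : K)) 1 = 1 := by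
    intro v
    refine max_eq_right ?_
    have := NumberField.FinitePlace.norm_le_one K v.maximalIdeal
      (n : NumberField.RingOfIntegers K)
    rw [NumberField.FinitePlace.norm_embedding_eq] at this
    simpa using this
  simp only [h1, h2, finprod_one, mul_one]
  rw [Finset.prod_pow_eq_pow_sum, NumberField.InfinitePlace.sum_mult_eq]

end NumberField

end Fermat.Agent.Cor.MordellWeil
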