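import Mathlib.Analysis.BoxIntegral.UnitPartition
import Mathlib.Analysis.Convex.Measure
import Mathlib.Analysis.Matrix.Order
import Mathlib.MeasureTheory.Measure.Lebesgue.VolumeOfBalls

/-!
# Integral points in ellipsoids

For a positive definite symmetric real matrix `M` of size `ι`, `r = #ι`:

* `volume_ellipsoid`: the volume of `{x : xᵗ M x ≤ 1}` is `vol(Bʳ) / √(det M)`, where
  `ballVolume r = vol(Bʳ) = (√π)ʳ / Γ(r / 2 + 1)`;
* `tendsto_card_form_le`: the number of integral vectors `w` with `wᵗ M w ≤ B`, divided by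
  `B ^ (r / 2)`, tends to this volume.
-/

namespace Fermat.Agent.Cor.MordellWeil

open Filter Topology Matrix MeasureTheory Bornology
open scoped MatrixOrder Pointwise

variable {ι : Type*} [Fintype ι]

/-- The volume of the unit ball of the Euclidean space of dimension `r`. -/
noncomputable def ballVolume (r : ℕ) : ℝ := √Real.pi ^ r / Real.Gamma (r / 2 + 1)

lemma ballVolume_pos (r : ℕ) : 0 < ballVolume r := by
  unfold ballVolume
  have h : (0 : ℝ) < (r : ℝ) / 2 + 1 := by positivity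
  have := Real.Gamma_pos_of_pos h
  have := Real.pi_pos
  positivity

/-- The Euclidean unit ball as a subset of `ι → ℝ`. -/
lemma volume_ball_pi : volume {y : ι → ℝ | y ⬝ᵥ y ≤ 1} =
    ENNReal.ofReal (ballVolume (Fintype.card ι)) := by
  rcases isEmpty_or_nonempty ι with hι | hι
  · have h1 : {y : ι → ℝ | y ⬝ᵥ y ≤ 1} = Set.univ := by
      ext y
      simp [dotProduct]
    rw [h1]
    have h2 : (volume : Measure (ι → ℝ)) Set.univ = 1 := by
      rw [volume_pi, Measure.pi_of_empty _ default]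
      simp
    rw [h2, Fintype.card_eq_zero, ballVolume]
    simp
  · have h1 : {y : ι → ℝ | y ⬝ᵥ y ≤ 1} =
        (WithLp.toLp 2 : (ι → ℝ) → EuclideanSpace ℝ ι) ⁻¹'
          Metric.closedBall (0 : EuclideanSpace ℝ ι) 1 := by
      ext y
      rw [Set.mem_preimage, mem_closedBall_zero_iff, EuclideanSpace.norm_eq]
      simp only [Real.norm_eq_abs, sq_abs, Real.sqrt_le_one]
      rw [Set.mem_ofPred_eq, dotProduct]
      simp only [sq]
    rw [h1, (PiLp.volume_preserving_toLp ι).measure_preimage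
      Metric.isClosed_closedBall.measurableSet.nullMeasurableSet,
      EuclideanSpace.volume_closedBall, ENNReal.ofReal_one, one_pow, one_mul, ballVolume]

variable {M : Matrix ι ι ℝ}

/-- A positive definite matrix is `Bᵗ B` with `det B = √(det M)` up to sign. -/
lemma exists_transpose_mul_self [DecidableEq ι] (hM : M.PosDef) :
    ∃ B : Matrix ι ι ℝ, Bᵀ * B = M ∧ B.det ≠ 0 ∧ |B.det| = √M.det := by
  obtain ⟨B, hB⟩ := CStarAlgebra.nonneg_iff_eq_star_mul_self.mp hM.posSemidef.nonneg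
  rw [star_eq_conjTranspose, conjTranspose_eq_transpose_of_trivial] at hB
  have h1 : M.det = B.det * B.det := by rw [hB, det_mul, det_transpose]
  refine ⟨B, hB.symm, fun h0 => hM.det_pos.ne' (by rw [h1, h0, mul_zero]), ?_⟩
  rw [h1, ← sq, Real.sqrt_sq_eq_abs]

lemma form_eq {B : Matrix ι ι ℝ} (hB : Bᵀ * B = M) (x : ι → ℝ) :
    x ⬝ᵥ (M *ᵥ x) = (B *ᵥ x) ⬝ᵥ (B *ᵥ x) := by
  rw [← hB, ← mulVec_mulVec, dotProduct_mulVec, vecMul_transpose]

lemma ellipsoid_eq [DecidableEq ι] {B : Matrix ι ι ℝ} (hB : Bᵀ * B = M) :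
    {x : ι → ℝ | x ⬝ᵥ (M *ᵥ x) ≤ 1} = Matrix.toLin' B ⁻¹' {y : ι → ℝ | y ⬝ᵥ y ≤ 1} := by
  ext x
  simp only [Set.mem_ofPred_eq, Set.mem_preimage, toLin'_apply]
  rw [form_eq hB]

/-- **The volume of an ellipsoid.** -/
theorem volume_ellipsoid [DecidableEq ι] (hM : M.PosDef) :
    volume {x : ι → ℝ | x ⬝ᵥ (M *ᵥ x) ≤ 1} =
      ENNReal.ofReal (ballVolume (Fintype.card ι) / √M.det) := by
  obtain ⟨B, hB, h0, h1⟩ := exists_transpose_mul_self hM
  rw [ellipsoid_eq hB, Measure.addHaar_preimage_linearMap _ (by rwa [LinearMap.det_toLin']),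
    LinearMap.det_toLin', volume_ball_pi, ← ENNReal.ofReal_mul (abs_nonneg _), abs_inv, h1,
    div_eq_inv_mul]

lemma convex_ball_pi : Convex ℝ {y : ι → ℝ | y ⬝ᵥ y ≤ 1} := by
  have h1 : {y : ι → ℝ | y ⬝ᵥ y ≤ 1} =
      (WithLp.linearEquiv 2 ℝ (ι → ℝ)).symm ⁻¹' Metric.closedBall (0 : EuclideanSpace ℝ ι) 1 := by
    ext y
    rw [Set.mem_preimage, mem_closedBall_zero_iff, EuclideanSpace.norm_eq]
    simp only [Real.norm_eq_abs, sq_abs, Real.sqrt_le_one]
    rw [Set.mem_ofPred_eq, dotProduct]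
    simp [sq]
  rw [h1]
  exact (convex_closedBall _ _).linear_preimage
    ((WithLp.linearEquiv 2 ℝ (ι → ℝ)).symm : (ι → ℝ) →ₗ[ℝ] EuclideanSpace ℝ ι)

lemma isBounded_ball_pi : IsBounded {y : ι → ℝ | y ⬝ᵥ y ≤ 1} := by
  refine (Metric.isBounded_closedBall (x := (0 : ι → ℝ)) (r := 1)).subset fun y hy => ?_
  rw [mem_closedBall_zero_iff, pi_norm_le_iff_of_nonneg zero_le_one]
  intro i
  have h1 : y i * y i ≤ 1 :=
    (Finset.single_le_sum (f := fun j => y j * y j) (fun j _ => mul_self_nonneg (y j))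
      (Finset.mem_univ i)).trans hy
  rw [Real.norm_eq_abs]
  exact abs_le_one_iff_mul_self_le_one.mpr h1

lemma isBounded_ellipsoid (hM : M.PosDef) :
    IsBounded {x : ι → ℝ | x ⬝ᵥ (M *ᵥ x) ≤ 1} := by
  classical
  obtain ⟨B, hB, h0, -⟩ := exists_transpose_mul_self hM
  have hu : IsUnit B.det := isUnit_iff_ne_zero.mpr h0
  have h1 : {x : ι → ℝ | x ⬝ᵥ (M *ᵥ x) ≤ 1} ⊆
      (Matrix.toLin' B⁻¹).toContinuousLinearMap '' {y : ι → ℝ | y ⬝ᵥ y ≤ 1} := by
    intro x hx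
    refine ⟨B *ᵥ x, ?_, ?_⟩
    · rw [Set.mem_ofPred_eq, ← form_eq hB]
      exact hx
    · rw [LinearMap.coe_toContinuousLinearMap', toLin'_apply, mulVec_mulVec,
        nonsing_inv_mul B hu, one_mulVec]
  exact ((Matrix.toLin' B⁻¹).toContinuousLinearMap.lipschitz.isBounded_image
    isBounded_ball_pi).subset h1

lemma continuous_form' (M : Matrix ι ι ℝ) : Continuous fun x : ι → ℝ => x ⬝ᵥ (M *ᵥ x) := by
  fun_prop

lemma form_smul (M : Matrix ι ι ℝ) (c : ℝ) (x : ι → ℝ) :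
    (c • x) ⬝ᵥ (M *ᵥ (c • x)) = c ^ 2 * (x ⬝ᵥ (M *ᵥ x)) := by
  rw [mulVec_smul, dotProduct_smul, smul_dotProduct, smul_smul, smul_eq_mul, sq]

/-- The integral points in the ellipsoid `xᵗ M x ≤ c²`. -/
lemma card_form_le_sq (M : Matrix ι ι ℝ) {c : ℝ} (hc : 0 < c) :
    Nat.card {w : ι → ℤ // (fun i => (w i : ℝ)) ⬝ᵥ (M *ᵥ fun i => (w i : ℝ)) ≤ c ^ 2} =
      Nat.card ↑({x : ι → ℝ | x ⬝ᵥ (M *ᵥ x) ≤ 1} ∩ c⁻¹ •
        (Submodule.span ℤ (Set.range (Pi.basisFun ℝ ι)) : Set (ι → ℝ))) := by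
  refine Nat.card_congr (Equiv.ofBijective
    (fun w => ⟨c⁻¹ • fun i => (w.1 i : ℝ), ?_, ?_⟩) ⟨?_, ?_⟩)
  · rw [Set.mem_ofPred_eq, form_smul]
    have h1 := w.2
    rw [inv_pow, inv_mul_le_iff₀ (by positivity), mul_one]
    exact h1
  · refine Set.smul_mem_smul_set ?_
    rw [SetLike.mem_coe, Module.Basis.mem_span_iff_repr_mem]
    intro i
    exact ⟨w.1 i, by simp⟩
  · intro w w' h
    have h1 := congrArg Subtype.val h
    have h2 := smul_right_injective (ι → ℝ) (inv_ne_zero hc.ne') h1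
    refine Subtype.ext (funext fun i => ?_)
    have h3 := congrFun h2 i
    exact_mod_cast h3
  · rintro ⟨x, hx, hxL⟩
    obtain ⟨y, hy, rfl⟩ := hxL
    rw [SetLike.mem_coe, Module.Basis.mem_span_iff_repr_mem] at hy
    choose w hw using hy
    have hyw : y = fun i => (w i : ℝ) := by
      funext i
      have := hw i
      simpa using this.symm
    subst hyw
    refine ⟨⟨w, ?_⟩, rfl⟩
    rw [Set.mem_ofPred_eq] at hx
    change (c⁻¹ • fun i => (w i : ℝ)) ⬝ᵥ (M *ᵥ (c⁻¹ • fun i => (w i : ℝ))) ≤ 1 at hx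
    rw [form_smul, inv_pow, inv_mul_le_iff₀ (by positivity), mul_one] at hx
    exact hx

/-- **The number of integral points in an ellipsoid**:
`#{w ∈ ℤʳ : wᵗ M w ≤ B} / B ^ (r / 2)` tends to `vol(Bʳ) / √(det M)`. -/
theorem tendsto_card_form_le [DecidableEq ι] (hM : M.PosDef) :
    Tendsto (fun B : ℝ =>
      (Nat.card {w : ι → ℤ // (fun i => (w i : ℝ)) ⬝ᵥ (M *ᵥ fun i => (w i : ℝ)) ≤ B} : ℝ) /
        B ^ ((Fintype.card ι : ℝ) / 2)) atTop
      (𝓝 (ballVolume (Fintype.card ι) / √M.det)) := by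
  obtain ⟨B, hB, -, -⟩ := exists_transpose_mul_self hM
  have hconv : Convex ℝ {x : ι → ℝ | x ⬝ᵥ (M *ᵥ x) ≤ 1} := by
    rw [ellipsoid_eq hB]
    exact convex_ball_pi.linear_preimage _
  have hmeas : MeasurableSet {x : ι → ℝ | x ⬝ᵥ (M *ᵥ x) ≤ 1} :=
    (isClosed_le (continuous_form' M) continuous_const).measurableSet
  have key := tendsto_card_div_pow_atTop_volume' {x : ι → ℝ | x ⬝ᵥ (M *ᵥ x) ≤ 1}
    (isBounded_ellipsoid hM) hmeas (hconv.addHaar_frontier volume) (fun x y hx hxy => by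
      rintro _ ⟨u, hu, rfl⟩
      have hy : 0 < y := hx.trans_le hxy
      refine ⟨(x / y) • u, ?_, ?_⟩
      · have h1 : (x / y) ^ 2 ≤ 1 := pow_le_one₀ (by positivity) ((div_le_one hy).mpr hxy)
        have h2 : 0 ≤ u ⬝ᵥ (M *ᵥ u) := by
          have := hM.posSemidef.dotProduct_mulVec_nonneg u
          rwa [star_trivial] at this
        rw [Set.mem_ofPred_eq] at hu ⊢
        rw [form_smul]
        nlinarith
      · change y • (x / y) • u = x • u
        rw [smul_smul, mul_div_cancel₀ _ hy.ne'])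
  have hv : volume.real {x : ι → ℝ | x ⬝ᵥ (M *ᵥ x) ≤ 1} =
      ballVolume (Fintype.card ι) / √M.det := by
    rw [measureReal_def, volume_ellipsoid hM, ENNReal.toReal_ofReal]
    have := ballVolume_pos (Fintype.card ι)
    positivity
  rw [hv] at key
  refine (key.comp Real.tendsto_sqrt_atTop).congr' ?_
  filter_upwards [eventually_gt_atTop 0] with c hc
  have hs : 0 < √c := Real.sqrt_pos.mpr hc
  rw [Function.comp_apply, ← card_form_le_sq M hs, Real.sq_sqrt hc.le, ← Real.rpow_natCast,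
    Real.sqrt_eq_rpow, ← Real.rpow_mul hc.le]
  congr 2
  ring

end Fermat.Agent.Cor.MordellWeil
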