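import Fermat.Agent.Corollaries.MordellWeil.Quad
import Mathlib.Analysis.Matrix.Order
import Mathlib.Topology.Instances.Matrix
import Mathlib.Topology.Algebra.Order.Floor

/-!
# The Gram matrix of a quadratic form with the Northcott property

Let `Q` be a non-negative function on an abelian group `G` with the parallelogram law.

* `gram Q v`: the matrix of the bilinear form `⟨x, y⟩ = (Q(x + y) - Q(x) - Q(y)) / 2` for a finite
  family `v` of elements of `G`, so that `⟨x, x⟩ = Q(x)`;
* `Par.gram_posSemidef`: it is positive semidefinite;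
* `Par.gram_posDef`: **it is positive definite if `v` is linearly independent over `ℤ` and there
  are only finitely many `x` with `Q(x) ≤ B`, for every `B`** (so `Q` extends to a positive
  definite form on `G ⊗ ℝ`, which is more than `Q(x) > 0` for `x` of infinite order).
-/

namespace Fermat.Agent.Cor.MordellWeil

open Filter Topology Matrix

variable {G : Type*} [AddCommGroup G] {ι : Type*}

/-- The Gram matrix of the family `v` for the form `⟨x, y⟩ = (Q(x + y) - Q(x) - Q(y)) / 2`. -/
noncomputable def gram (Q : G → ℝ) (v : ι → G) : Matrix ι ι ℝ :=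
  Matrix.of fun i j => QuadraticMap.polar Q (v i) (v j) / 2

lemma gram_apply (Q : G → ℝ) (v : ι → G) (i j : ι) :
    gram Q v i j = (Q (v i + v j) - Q (v i) - Q (v j)) / 2 := rfl

lemma gram_transpose (Q : G → ℝ) (v : ι → G) : (gram Q v)ᵀ = gram Q v := by
  ext i j
  rw [transpose_apply, gram_apply, gram_apply, add_comm]
  ring

lemma gram_isHermitian (Q : G → ℝ) (v : ι → G) : (gram Q v).IsHermitian := by
  rw [IsHermitian, conjTranspose_eq_transpose_of_trivial, gram_transpose]

variable {Q : G → ℝ}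

lemma Par.gram_self (h : Par Q) (v : ι → G) (i : ι) : gram Q v i i = Q (v i) := by
  have h1 := h.polar_self (v i)
  rw [QuadraticMap.polar] at h1
  rw [gram_apply, h1]
  ring

lemma Par.polar_sum_left (h : Par Q) (s : Finset ι) (w : ι → ℤ) (v : ι → G) (y : G) :
    QuadraticMap.polar Q (∑ i ∈ s, w i • v i) y =
      ∑ i ∈ s, (w i : ℝ) * QuadraticMap.polar Q (v i) y := by
  have h1 := map_sum (h.polarHom y) (fun i => w i • v i) s
  refine h1.trans (Finset.sum_congr rfl fun i _ => ?_)
  exact (h.polar_zsmul_left (w i) (v i) y).trans (zsmul_eq_mul _ _)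

variable [Fintype ι]

/-- The value of `Q` at an integral linear combination. -/
lemma Par.map_sum (h : Par Q) (w : ι → ℤ) (v : ι → G) :
    Q (∑ i, w i • v i) =
      (fun i => (w i : ℝ)) ⬝ᵥ (gram Q v *ᵥ fun i => (w i : ℝ)) := by
  have h1 : 2 * Q (∑ i, w i • v i) =
      ∑ i, ∑ j, (w i : ℝ) * ((w j : ℝ) * QuadraticMap.polar Q (v i) (v j)) := by
    rw [← h.polar_self, h.polar_sum_left]
    refine Finset.sum_congr rfl fun i _ => ?_
    rw [QuadraticMap.polar_comm, h.polar_sum_left, Finset.mul_sum]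
    refine Finset.sum_congr rfl fun j _ => ?_
    rw [QuadraticMap.polar_comm]
  have h2 : Q (∑ i, w i • v i) =
      (∑ i, ∑ j, (w i : ℝ) * ((w j : ℝ) * QuadraticMap.polar Q (v i) (v j))) / 2 := by
    rw [← h1]
    ring
  rw [h2, Finset.sum_div]
  simp only [dotProduct, mulVec, Finset.mul_sum, Finset.sum_div]
  refine Finset.sum_congr rfl fun i _ => Finset.sum_congr rfl fun j _ => ?_
  rw [gram, of_apply]
  ring

lemma abs_round_sub_le (x : ℝ) : |(round x : ℝ) - x| ≤ 1 / 2 := by
  rw [abs_sub_comm]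
  exact abs_sub_round x

lemma tendsto_round_div (x : ℝ) :
    Tendsto (fun n : ℕ => (round ((n : ℝ) * x) : ℝ) / n) atTop (𝓝 x) := by
  rw [tendsto_iff_dist_tendsto_zero]
  have h1 : Tendsto (fun n : ℕ => (1 / 2 : ℝ) / n) atTop (𝓝 0) :=
    tendsto_const_div_atTop_nhds_zero_nat _
  refine squeeze_zero' (Eventually.of_forall fun n => dist_nonneg) ?_ h1
  filter_upwards [eventually_gt_atTop 0] with n hn
  have hn' : (0 : ℝ) < n := Nat.cast_pos.mpr hn
  rw [Real.dist_eq, show (round ((n : ℝ) * x) : ℝ) / n - x = (round ((n : ℝ) * x) - n * x) / n by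
    field_simp, abs_div, abs_of_pos hn']
  gcongr
  exact abs_round_sub_le _

lemma continuous_form (M : Matrix ι ι ℝ) : Continuous fun x : ι → ℝ => x ⬝ᵥ (M *ᵥ x) := by
  fun_prop

/-- **The Gram matrix is positive semidefinite.** -/
theorem Par.gram_posSemidef (h : Par Q) (hQ : ∀ x, 0 ≤ Q x) (v : ι → G) :
    (gram Q v).PosSemidef := by
  refine PosSemidef.of_dotProduct_mulVec_nonneg (gram_isHermitian Q v) fun x => ?_
  rw [star_trivial]
  have h1 : Tendsto (fun n : ℕ => fun i => (round ((n : ℝ) * x i) : ℝ) / n) atTop (𝓝 x) :=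
    tendsto_pi_nhds.mpr fun i => tendsto_round_div (x i)
  have h2 := ((continuous_form (gram Q v)).tendsto x).comp h1
  refine ge_of_tendsto' h2 fun n => ?_
  have h3 := h.map_sum (fun i => round ((n : ℝ) * x i)) v
  have h4 := hQ (∑ i, (round ((n : ℝ) * x i)) • v i)
  rw [h3] at h4
  have e : (fun i => (round ((n : ℝ) * x i) : ℝ) / n) =
      (n : ℝ)⁻¹ • fun i => (round ((n : ℝ) * x i) : ℝ) := by
    funext i
    rw [Pi.smul_apply, smul_eq_mul, div_eq_inv_mul]
  rw [Function.comp_apply, e, mulVec_smul, dotProduct_smul, smul_dotProduct, smul_smul,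
    smul_eq_mul]
  exact mul_nonneg (mul_self_nonneg _) h4

lemma form_le (M : Matrix ι ι ℝ) {e : ι → ℝ} (he : ∀ i, |e i| ≤ 1 / 2) :
    e ⬝ᵥ (M *ᵥ e) ≤ ∑ i, ∑ j, |M i j| := by
  simp only [dotProduct, mulVec, Finset.mul_sum]
  refine Finset.sum_le_sum fun i _ => Finset.sum_le_sum fun j _ => ?_
  refine (le_abs_self _).trans ?_
  rw [abs_mul, abs_mul]
  have h1 := he i
  have h2 := he j
  have h3 := abs_nonneg (M i j)
  have h4 := abs_nonneg (e i)
  have h5 := abs_nonneg (e j)
  have h6 : |e i| * |e j| ≤ 1 := by nlinarith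
  nlinarith

/-- **The Gram matrix of a linearly independent family is positive definite.** -/
theorem Par.gram_posDef (h : Par Q) (hQ : ∀ x, 0 ≤ Q x) (hfin : ∀ B : ℝ, {x | Q x ≤ B}.Finite)
    {v : ι → G} (hv : LinearIndependent ℤ v) : (gram Q v).PosDef := by
  classical
  have hpsd := h.gram_posSemidef hQ v
  refine PosDef.of_dotProduct_mulVec_pos (gram_isHermitian Q v) fun x hx => ?_
  have h0 := hpsd.dotProduct_mulVec_nonneg x
  refine lt_of_le_of_ne h0 fun hzero => ?_
  have hM : gram Q v *ᵥ x = 0 := (hpsd.dotProduct_mulVec_zero_iff x).mp hzero.symm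
  set M := gram Q v with hMdef
  set B : ℝ := ∑ i, ∑ j, |M i j| with hB
  -- the integral vectors near the line of `x`
  have key : ∀ n : ℕ, Q (∑ i, (round ((n : ℝ) * x i)) • v i) ≤ B := by
    intro n
    rw [h.map_sum]
    set e : ι → ℝ := fun i => (round ((n : ℝ) * x i) : ℝ) - n * x i with he
    have h1 : (fun i => (round ((n : ℝ) * x i) : ℝ)) = (n : ℝ) • x + e := by
      funext i
      simp [he]
    have h2 : x ⬝ᵥ (M *ᵥ e) = 0 := by
      rw [dotProduct_mulVec, ← mulVec_transpose, gram_transpose, hM, zero_dotProduct]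
    rw [h1, mulVec_add, mulVec_smul, hM, smul_zero, zero_add, add_dotProduct, smul_dotProduct,
      h2, smul_zero, zero_add]
    exact form_le M fun i => abs_round_sub_le _
  -- there are only finitely many of them
  have hinj : Function.Injective fun w : ι → ℤ => ∑ i, w i • v i := by
    intro w w' hw
    have hw' : ∑ i, w i • v i = ∑ i, w' i • v i := hw
    funext i
    refine sub_eq_zero.mp (Fintype.linearIndependent_iff.mp hv (fun i => w i - w' i) ?_ i)
    simp only [sub_smul, Finset.sum_sub_distrib]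
    rw [hw', sub_self]
  have hS : {w : ι → ℤ | Q (∑ i, w i • v i) ≤ B}.Finite :=
    (hfin B).preimage hinj.injOn
  obtain ⟨i, hi⟩ := Function.ne_iff.mp hx
  obtain ⟨b, hb⟩ := (hS.image fun w => |(w i : ℝ)|).bddAbove
  have hxi : 0 < |x i| := abs_pos.mpr hi
  obtain ⟨n, hn⟩ := exists_nat_gt ((b + 1 / 2) / |x i|)
  rw [div_lt_iff₀ hxi] at hn
  have h1 : |(round ((n : ℝ) * x i) : ℝ)| ≤ b :=
    hb ⟨fun i => round ((n : ℝ) * x i), key n, rfl⟩
  have h2 := abs_round_sub_le ((n : ℝ) * x i)
  have h3 : |(n : ℝ) * x i| ≤ |(round ((n : ℝ) * x i) : ℝ)| + 1 / 2 := by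
    have h4 := abs_sub_abs_le_abs_sub ((n : ℝ) * x i) (round ((n : ℝ) * x i))
    rw [abs_sub_comm] at h4
    linarith
  rw [abs_mul, Nat.abs_cast] at h3
  linarith

/-- The Gram determinant of a linearly independent family is positive. -/
theorem Par.gram_det_pos [DecidableEq ι] (h : Par Q) (hQ : ∀ x, 0 ≤ Q x)
    (hfin : ∀ B : ℝ, {x | Q x ≤ B}.Finite) {v : ι → G} (hv : LinearIndependent ℤ v) :
    0 < (gram Q v).det :=
  (h.gram_posDef hQ hfin hv).det_pos

/-- The Gram matrix after an integral change of the family. -/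
theorem Par.gram_mul {κ : Type*} [Fintype κ] (h : Par Q) (v : ι → G) (A : Matrix ι κ ℤ) :
    gram Q (fun j => ∑ i, A i j • v i) =
      (A.map (Int.cast : ℤ → ℝ))ᵀ * gram Q v * A.map (Int.cast : ℤ → ℝ) := by
  ext j k
  rw [gram, of_apply, h.polar_sum_left]
  simp only [mul_apply, transpose_apply, map_apply, Finset.sum_mul, Finset.sum_div]
  rw [Finset.sum_comm]
  refine Finset.sum_congr rfl fun i _ => ?_
  rw [QuadraticMap.polar_comm, h.polar_sum_left, Finset.mul_sum, Finset.sum_div]
  refine Finset.sum_congr rfl fun l _ => ?_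
  rw [gram, of_apply, QuadraticMap.polar_comm]
  ring

end Fermat.Agent.Cor.MordellWeil
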