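import Mathlib.GroupTheory.FiniteAbelian.Basic
import Mathlib.LinearAlgebra.Dimension.Torsion.Finite
import Fermat.Agent.Corollaries.MordellWeil.Gram
import Fermat.Agent.Corollaries.MordellWeil.Ellipsoid

/-!
# Counting the elements of a finitely generated abelian group by a quadratic form

* `IsBasisModTorsion v`: the family `v` is linearly independent over `ℤ` and generates the abelian
  group `G` up to torsion; the number of its members is the rank of `G` (`card_eq`), and such a
  family exists if `G` is finitely generated (`exists_isBasisModTorsion`);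
* `tendsto_card_par_le`: for a non-negative form `Q` on `G` with the Northcott property,
  `#{x : Q(x) ≤ B} / B ^ (r / 2)` tends to `#G_tors vol(Bʳ) / √(det gram(Q, v))`;
* `gram_det_eq`: the Gram determinant is the same for all these families.
-/

namespace Fermat.Agent.Cor.MordellWeil

open Filter Topology Matrix

variable {G : Type*} [AddCommGroup G]

/-- The family `v` is a basis of the abelian group `G` modulo torsion. -/
structure IsBasisModTorsion {ι : Type*} [Fintype ι] (v : ι → G) : Prop where
  linearIndependent : LinearIndependent ℤ v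
  exists_sub : ∀ x : G, ∃ w : ι → ℤ, IsOfFinAddOrder (x - ∑ i, w i • v i)

lemma mem_torsion_iff {x : G} : x ∈ AddCommGroup.torsion G ↔ IsOfFinAddOrder x := Iff.rfl

namespace IsBasisModTorsion

variable {ι : Type*} [Fintype ι] {v : ι → G}

/-- The decomposition of an element into a torsion element and an integral combination. -/
theorem bijective (h : IsBasisModTorsion v) :
    Function.Bijective fun p : AddCommGroup.torsion G × (ι → ℤ) =>
      (p.1 : G) + ∑ i, p.2 i • v i := by
  constructor
  · rintro ⟨t, w⟩ ⟨t', w'⟩ hp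
    have hp' : (t : G) + ∑ i, w i • v i = (t' : G) + ∑ i, w' i • v i := hp
    have h1 : ∑ i, (w i - w' i) • v i = ((t' - t : AddCommGroup.torsion G) : G) := by
      simp only [sub_smul, Finset.sum_sub_distrib, AddSubgroup.coe_sub]
      rw [sub_eq_sub_iff_add_eq_add, add_comm, hp', add_comm]
    obtain ⟨n, hn, hn0⟩ := isOfFinAddOrder_iff_nsmul_eq_zero.mp
      (mem_torsion_iff.mp (t' - t).2)
    have h2 : ∑ i, ((n : ℤ) * (w i - w' i)) • v i = 0 := by
      have : n • ∑ i, (w i - w' i) • v i = 0 := by rw [h1]; exact hn0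
      rw [← this, Finset.smul_sum]
      refine Finset.sum_congr rfl fun i _ => ?_
      rw [mul_smul, natCast_zsmul]
    have h3 := Fintype.linearIndependent_iff.mp h.linearIndependent _ h2
    have h4 : w = w' := funext fun i => sub_eq_zero.mp
      ((mul_eq_zero.mp (h3 i)).resolve_left (Int.natCast_ne_zero.mpr hn.ne'))
    subst h4
    exact Prod.ext (Subtype.ext (add_right_cancel hp')) rfl
  · intro x
    obtain ⟨w, hw⟩ := h.exists_sub x
    exact ⟨(⟨_, hw⟩, w), sub_add_cancel _ _⟩

/-- The number of members of the family is the rank. -/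
theorem card_eq (h : IsBasisModTorsion v) : Fintype.card ι = Module.finrank ℤ G := by
  have h1 := rank_quotient_add_rank_of_isDomain (R := ℤ) (Submodule.span ℤ (Set.range v))
  have h2 : Module.rank ℤ (G ⧸ Submodule.span ℤ (Set.range v)) = 0 := by
    rw [Module.rank_eq_zero_iff_isTorsion]
    intro y
    obtain ⟨x, rfl⟩ := Submodule.Quotient.mk_surjective _ y
    obtain ⟨w, hw⟩ := h.exists_sub x
    obtain ⟨n, hn, hn0⟩ := isOfFinAddOrder_iff_nsmul_eq_zero.mp hw
    refine ⟨⟨(n : ℤ), mem_nonZeroDivisors_of_ne_zero (Int.natCast_ne_zero.mpr hn.ne')⟩, ?_⟩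
    change (n : ℤ) • (Submodule.Quotient.mk x : G ⧸ Submodule.span ℤ (Set.range v)) = 0
    rw [← Submodule.Quotient.mk_smul, Submodule.Quotient.mk_eq_zero]
    have h3 : (n : ℤ) • x = (n : ℤ) • ∑ i, w i • v i := by
      rw [← sub_eq_zero, ← smul_sub, natCast_zsmul]
      exact hn0
    rw [h3]
    exact Submodule.smul_mem _ _ (Submodule.sum_mem _ fun i _ =>
      Submodule.smul_mem _ _ (Submodule.subset_span ⟨i, rfl⟩))
  rw [h2, zero_add, rank_span h.linearIndependent] at h1
  rw [Module.finrank, ← h1]
  change Fintype.card ι = Nat.card (Set.range v)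
  rw [← Nat.card_congr (Equiv.ofInjective v h.linearIndependent.injective),
    Nat.card_eq_fintype_card]

/-- The count of elements through the count of integral vectors. -/
theorem card_le {Q : G → ℝ} (h : IsBasisModTorsion v) (hQ : Par Q) (B : ℝ) :
    Nat.card {x : G // Q x ≤ B} = Nat.card (AddCommGroup.torsion G) *
      Nat.card {w : ι → ℤ //
        (fun i => (w i : ℝ)) ⬝ᵥ (gram Q v *ᵥ fun i => (w i : ℝ)) ≤ B} := by
  rw [← Nat.card_prod]
  refine Nat.card_congr (((Equiv.ofBijective _ h.bijective).subtypeEquiv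
    (p := fun p => (fun i => (p.2 i : ℝ)) ⬝ᵥ (gram Q v *ᵥ fun i => (p.2 i : ℝ)) ≤ B)
    fun p => ?_).symm.trans ⟨fun x => (x.1.1, ⟨x.1.2, x.2⟩), fun y => ⟨(y.1, y.2.1), y.2.2⟩,
      fun _ => rfl, fun _ => rfl⟩)
  rw [Equiv.ofBijective_apply, add_comm,
    hQ.map_add_of_isOfFinAddOrder (mem_torsion_iff.mp p.1.2), hQ.map_sum]

end IsBasisModTorsion

variable (G) in
/-- A finitely generated abelian group has a basis modulo torsion. -/
theorem exists_isBasisModTorsion [AddGroup.FG G] :
    ∃ v : Fin (Module.finrank ℤ G) → G, IsBasisModTorsion v := by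
  classical
  obtain ⟨n, κ, hκ, p, hp, e, ⟨E⟩⟩ := AddCommGroup.equiv_free_prod_directSum_zmod G
  have hne : ∀ i, NeZero (p i ^ e i) := fun i => ⟨pow_ne_zero _ (hp i).ne_zero⟩
  have hfin : Finite (DirectSum κ fun i => ZMod (p i ^ e i)) :=
    Finite.of_equiv _ (DirectSum.addEquivProd fun i => ZMod (p i ^ e i)).symm.toEquiv
  have hv : IsBasisModTorsion fun i : Fin n => E.symm (Finsupp.single i 1, 0) := by
    have hsum : ∀ w : Fin n → ℤ, ∑ i, w i • E.symm (Finsupp.single i 1, 0) =
        E.symm (Finsupp.equivFunOnFinite.symm w, 0) := by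
      intro w
      simp only [← map_zsmul, ← map_sum]
      congr 1
      refine Prod.ext ?_ ?_
      · rw [Prod.fst_sum]
        ext j
        simp [Finsupp.single_apply]
      · rw [Prod.snd_sum]
        simp
    refine ⟨?_, fun x => ?_⟩
    · rw [Fintype.linearIndependent_iff]
      intro w hw i
      rw [hsum, AddEquiv.map_eq_zero_iff, Prod.mk_eq_zero] at hw
      have := DFunLike.congr_fun hw.1 i
      simpa using this
    · refine ⟨fun i => (E x).1 i, ?_⟩
      rw [hsum]
      have h1 : x - E.symm (Finsupp.equivFunOnFinite.symm (fun i => (E x).1 i), 0) =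
          E.symm.toAddMonoidHom (0, (E x).2) := by
        apply E.injective
        rw [map_sub, AddEquiv.apply_symm_apply]
        change _ = E (E.symm (0, (E x).2))
        rw [AddEquiv.apply_symm_apply]
        refine Prod.ext ?_ ?_
        · ext j
          simp
        · simp
      rw [h1]
      refine AddMonoidHom.isOfFinAddOrder _ ?_
      have h2 : ((0, (E x).2) : (Fin n →₀ ℤ) × DirectSum κ fun i => ZMod (p i ^ e i)) =
          AddMonoidHom.inr (Fin n →₀ ℤ) (DirectSum κ fun i => ZMod (p i ^ e i)) (E x).2 := rfl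
      rw [h2]
      exact AddMonoidHom.isOfFinAddOrder _ (isOfFinAddOrder_of_finite _)
  have hn : n = Module.finrank ℤ G := by
    rw [← hv.card_eq, Fintype.card_fin]
  subst hn
  exact ⟨_, hv⟩

section Count

variable {Q : G → ℝ} {ι : Type*} [Fintype ι] [DecidableEq ι] {v : ι → G}

/-- **The number of elements `x` of a finitely generated abelian group with `Q(x) ≤ B`.** -/
theorem tendsto_card_par_le (hQ : Par Q) (h0 : ∀ x, 0 ≤ Q x)
    (hfin : ∀ B : ℝ, {x | Q x ≤ B}.Finite) (hv : IsBasisModTorsion v) :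
    Tendsto (fun B : ℝ => (Nat.card {x : G // Q x ≤ B} : ℝ) /
      B ^ ((Module.finrank ℤ G : ℝ) / 2)) atTop
      (𝓝 (Nat.card (AddCommGroup.torsion G) *
        (ballVolume (Module.finrank ℤ G) / √(gram Q v).det))) := by
  rw [← hv.card_eq]
  refine ((tendsto_card_form_le (hQ.gram_posDef h0 hfin hv.linearIndependent)).const_mul
    (Nat.card (AddCommGroup.torsion G) : ℝ)).congr fun B => ?_
  rw [hv.card_le hQ B, Nat.cast_mul, mul_div_assoc]

/-- **The Gram determinant does not depend on the basis modulo torsion.** -/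
theorem gram_det_eq (hQ : Par Q) (h0 : ∀ x, 0 ≤ Q x)
    (hfin : ∀ B : ℝ, {x | Q x ≤ B}.Finite) (hv : IsBasisModTorsion v) {κ : Type*} [Fintype κ]
    [DecidableEq κ] {u : κ → G} (hu : IsBasisModTorsion u) :
    (gram Q v).det = (gram Q u).det := by
  have h1 := tendsto_nhds_unique (tendsto_card_par_le hQ h0 hfin hv)
    (tendsto_card_par_le hQ h0 hfin hu)
  have htors : (AddCommGroup.torsion G : Set G) ⊆ {x | Q x ≤ 0} := fun x hx =>
    (hQ.eq_zero_of_isOfFinAddOrder (mem_torsion_iff.mp hx)).le
  have hT : Finite (AddCommGroup.torsion G) := ((hfin 0).subset htors).to_subtype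
  have h2 : (Nat.card (AddCommGroup.torsion G) : ℝ) ≠ 0 :=
    Nat.cast_ne_zero.mpr Nat.card_pos.ne'
  have h3 := mul_left_cancel₀ h2 h1
  rw [div_eq_mul_inv, div_eq_mul_inv] at h3
  have h4 := inv_injective (mul_left_cancel₀ (ballVolume_pos (Module.finrank ℤ G)).ne' h3)
  have h5 := (hQ.gram_det_pos h0 hfin hv.linearIndependent).le
  have h6 := (hQ.gram_det_pos h0 hfin hu.linearIndependent).le
  rwa [Real.sqrt_inj h5 h6] at h4

/-- A function at bounded distance from `Q` has the same count. -/
theorem tendsto_card_le_of_abs_sub_le (hQ : Par Q) (h0 : ∀ x, 0 ≤ Q x)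
    (hfin : ∀ B : ℝ, {x | Q x ≤ B}.Finite) (hv : IsBasisModTorsion v) {h : G → ℝ} {C : ℝ}
    (hC : ∀ x, |Q x - h x| ≤ C) :
    Tendsto (fun B : ℝ => (Nat.card {x : G // h x ≤ B} : ℝ) /
      B ^ ((Module.finrank ℤ G : ℝ) / 2)) atTop
      (𝓝 (Nat.card (AddCommGroup.torsion G) *
        (ballVolume (Module.finrank ℤ G) / √(gram Q v).det))) := by
  set L : ℝ := Nat.card (AddCommGroup.torsion G) *
    (ballVolume (Module.finrank ℤ G) / √(gram Q v).det)
  set ρ : ℝ := (Module.finrank ℤ G : ℝ) / 2 with hρ
  have key := tendsto_card_par_le hQ h0 hfin hv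
  -- the shifted counts
  have shift : ∀ c : ℝ, Tendsto (fun B : ℝ => (Nat.card {x : G // Q x ≤ B + c} : ℝ) / B ^ ρ)
      atTop (𝓝 L) := by
    intro c
    have h1 : Tendsto (fun B : ℝ => (Nat.card {x : G // Q x ≤ B + c} : ℝ) / (B + c) ^ ρ)
        atTop (𝓝 L) := key.comp (tendsto_atTop_add_const_right _ c tendsto_id)
    have h2 : Tendsto (fun B : ℝ => ((B + c) / B) ^ ρ) atTop (𝓝 1) := by
      have h3 : Tendsto (fun B : ℝ => 1 + c / B) atTop (𝓝 (1 + 0)) :=
        tendsto_const_nhds.add (tendsto_const_nhds.div_atTop tendsto_id)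
      rw [add_zero] at h3
      have h4 : Tendsto (fun B : ℝ => (1 + c / B) ^ ρ) atTop (𝓝 ((1 : ℝ) ^ ρ)) :=
        h3.rpow_const (Or.inl one_ne_zero)
      rw [Real.one_rpow] at h4
      refine h4.congr' ?_
      filter_upwards [eventually_gt_atTop 0] with B hB
      rw [add_div, div_self hB.ne']
    have h3 := h1.mul h2
    rw [mul_one] at h3
    refine h3.congr' ?_
    filter_upwards [eventually_gt_atTop 0, eventually_gt_atTop (-c)] with B hB hBc
    have h5 : 0 < B + c := by linarith
    rw [Real.div_rpow h5.le hB.le]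
    have h6 : (B + c) ^ ρ ≠ 0 := (Real.rpow_pos_of_pos h5 _).ne'
    have h7 : B ^ ρ ≠ 0 := (Real.rpow_pos_of_pos hB _).ne'
    field_simp
  have hfinh : ∀ B : ℝ, {x | h x ≤ B}.Finite := fun B =>
    (hfin (B + C)).subset fun x hx => by
      have h1 := abs_le.mp (hC x)
      change h x ≤ B at hx
      change Q x ≤ B + C
      linarith [h1.1, h1.2]
  refine tendsto_of_tendsto_of_tendsto_of_le_of_le' (shift (-C)) (shift C) ?_ ?_
  · filter_upwards [eventually_gt_atTop 0] with B hB
    have hB' : 0 < B ^ ρ := Real.rpow_pos_of_pos hB _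
    gcongr
    have : Finite {x : G // h x ≤ B} := (hfinh B).to_subtype
    refine Nat.card_le_card_of_injective (fun x => ⟨x.1, ?_⟩) fun x y hxy => by
      have h3 := congrArg Subtype.val hxy
      exact Subtype.ext h3
    have h1 := abs_le.mp (hC x.1)
    have h2 := x.2
    linarith [h1.1, h1.2]
  · filter_upwards [eventually_gt_atTop 0] with B hB
    have hB' : 0 < B ^ ρ := Real.rpow_pos_of_pos hB _
    gcongr
    have : Finite {x : G // Q x ≤ B + C} := (hfin (B + C)).to_subtype
    refine Nat.card_le_card_of_injective (fun x => ⟨x.1, ?_⟩) fun x y hxy => by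
      have h3 := congrArg Subtype.val hxy
      exact Subtype.ext h3
    have h1 := abs_le.mp (hC x.1)
    have h2 := x.2
    linarith [h1.1, h1.2]

end Count

end Fermat.Agent.Cor.MordellWeil
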