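import Fermat.Agent.Corollaries.MordellWeil.Par
import Fermat.Agent.Corollaries.MordellWeil.Gram

/-!
# The Néron-Tate height

`W` an elliptic curve over a field `K` with a theory of heights, `h(P)` the logarithmic height of
the abscissa of `P` (`ht P`).

* `canonicalHeight P = lim h(2ⁿ P) / 4ⁿ` (`tendsto_canonicalHeight`);
* `canonicalHeight_parallelogram`, `exists_abs_canonicalHeight_sub_le`,
  `eq_canonicalHeight`: **it is the only function on `E(K)` which satisfies the parallelogram law
  and is at bounded distance from `h`**;
* `canonicalHeight_zsmul`: `ĥ(n P) = n² ĥ(P)`; `heightPairing`: the bilinear form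
  `⟨P, Q⟩ = (ĥ(P + Q) - ĥ(P) - ĥ(Q)) / 2`, `⟨P, P⟩ = ĥ(P)`;
* over a number field: `finite_canonicalHeight_le`: finitely many points of bounded height,
  `canonicalHeight_eq_zero_iff`: **`ĥ(P) = 0` if and only if `P` is a torsion point**,
  `exists_pos_le_canonicalHeight`: the heights of the points of infinite order are bounded from
  below by a positive number, `heightPairing_posDef`: **the matrix of the height pairing on
  independent points is positive definite**, so its determinant is positive
  (`heightPairing_det_pos`: the regulator is not zero).
-/

namespace Fermat.Agent.Cor.MordellWeil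

open Filter Topology Height WeierstrassCurve

section General

variable {K : Type*} [Field K] [AdmissibleAbsValues K] [DecidableEq K] {W : WeierstrassCurve K}

/-- **The Néron-Tate height** of a point `P`: the limit of `h(2ⁿ P) / 4ⁿ`, where `h` is the
logarithmic height of the abscissa. -/
noncomputable def canonicalHeight (P : W.toAffine.Point) : ℝ := canon ht P

/-- The height pairing, normalised by `⟨P, P⟩ = ĥ(P)`. -/
noncomputable def heightPairing (P Q : W.toAffine.Point) : ℝ :=
  (canonicalHeight (P + Q) - canonicalHeight P - canonicalHeight Q) / 2

variable [W.IsElliptic]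

theorem tendsto_canonicalHeight (P : W.toAffine.Point) :
    Tendsto (fun n : ℕ => ht ((2 ^ n) • P) / 4 ^ n) atTop (𝓝 (canonicalHeight P)) := by
  obtain ⟨C, hC⟩ := abs_ht_add_sub_le W
  exact tendsto_canon hC P

variable (W) in
theorem par_canonicalHeight : Par (canonicalHeight : W.toAffine.Point → ℝ) := by
  obtain ⟨C, hC⟩ := abs_ht_add_sub_le W
  exact par_canon hC

/-- **The parallelogram law for the Néron-Tate height.** -/
theorem canonicalHeight_parallelogram (P Q : W.toAffine.Point) :
    canonicalHeight (P + Q) + canonicalHeight (P - Q) =
      2 * (canonicalHeight P + canonicalHeight Q) :=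
  par_canonicalHeight W P Q

variable (W) in
/-- **The Néron-Tate height and the naive height differ by a bounded quantity.** -/
theorem exists_abs_canonicalHeight_sub_le :
    ∃ C, ∀ P : W.toAffine.Point, |canonicalHeight P - ht P| ≤ C := by
  obtain ⟨C, hC⟩ := abs_ht_add_sub_le W
  exact ⟨_, abs_canon_sub_le hC⟩

/-- **The Néron-Tate height is characterised by the parallelogram law and by its distance from the
naive height.** -/
theorem eq_canonicalHeight {f : W.toAffine.Point → ℝ}
    (hf : ∀ P Q, f (P + Q) + f (P - Q) = 2 * (f P + f Q))
    (hb : ∃ C, ∀ P, |f P - ht P| ≤ C) (P : W.toAffine.Point) : f P = canonicalHeight P := by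
  obtain ⟨C, hC⟩ := abs_ht_add_sub_le W
  obtain ⟨B, hB⟩ := hb
  exact congrFun (Par.eq_canon hC (Q := f) hf hB) P

@[simp]
theorem canonicalHeight_zero : canonicalHeight (0 : W.toAffine.Point) = 0 :=
  (par_canonicalHeight W).map_zero

@[simp]
theorem canonicalHeight_neg (P : W.toAffine.Point) : canonicalHeight (-P) = canonicalHeight P :=
  (par_canonicalHeight W).map_neg P

/-- `ĥ(n P) = n² ĥ(P)`. -/
theorem canonicalHeight_zsmul (n : ℤ) (P : W.toAffine.Point) :
    canonicalHeight (n • P) = (n : ℝ) ^ 2 * canonicalHeight P := by
  rw [(par_canonicalHeight W).map_zsmul, zsmul_eq_mul]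
  push_cast
  ring

/-- `ĥ(n P) = n² ĥ(P)`. -/
theorem canonicalHeight_nsmul (n : ℕ) (P : W.toAffine.Point) :
    canonicalHeight (n • P) = (n : ℝ) ^ 2 * canonicalHeight P :=
  (par_canonicalHeight W).map_nsmul n P

theorem canonicalHeight_nonneg (P : W.toAffine.Point) : 0 ≤ canonicalHeight P := by
  obtain ⟨C, hC⟩ := abs_ht_add_sub_le W
  exact canon_nonneg hC (b := 0) ht_nonneg P

theorem canonicalHeight_eq_zero_of_isOfFinAddOrder {P : W.toAffine.Point}
    (hP : IsOfFinAddOrder P) : canonicalHeight P = 0 :=
  (par_canonicalHeight W).eq_zero_of_isOfFinAddOrder hP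

/-- The Néron-Tate height does not change if a torsion point is added. -/
theorem canonicalHeight_add_of_isOfFinAddOrder (P : W.toAffine.Point) {T : W.toAffine.Point}
    (hT : IsOfFinAddOrder T) : canonicalHeight (P + T) = canonicalHeight P :=
  (par_canonicalHeight W).map_add_of_isOfFinAddOrder hT

variable (W) in
/-- The Néron-Tate height as a quadratic map over `ℤ`. -/
noncomputable def canonicalQuadraticMap : QuadraticMap ℤ W.toAffine.Point ℝ :=
  (par_canonicalHeight W).toQuadraticMap

@[simp]
lemma canonicalQuadraticMap_apply (P : W.toAffine.Point) :
    canonicalQuadraticMap W P = canonicalHeight P := rfl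

/-! ### The height pairing -/

omit [W.IsElliptic] in
theorem heightPairing_comm (P Q : W.toAffine.Point) : heightPairing P Q = heightPairing Q P := by
  rw [heightPairing, heightPairing, add_comm]
  ring

@[simp]
theorem heightPairing_self (P : W.toAffine.Point) : heightPairing P P = canonicalHeight P := by
  have h := (par_canonicalHeight W).polar_self P
  rw [QuadraticMap.polar] at h
  rw [heightPairing, h]
  ring

theorem heightPairing_add_left (P P' Q : W.toAffine.Point) :
    heightPairing (P + P') Q = heightPairing P Q + heightPairing P' Q := by
  have h := (par_canonicalHeight W).polar_add_left P P' Q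
  simp only [QuadraticMap.polar] at h
  simp only [heightPairing]
  linarith

theorem heightPairing_add_right (P Q Q' : W.toAffine.Point) :
    heightPairing P (Q + Q') = heightPairing P Q + heightPairing P Q' := by
  rw [heightPairing_comm, heightPairing_add_left, heightPairing_comm Q, heightPairing_comm Q']

theorem heightPairing_zsmul_left (n : ℤ) (P Q : W.toAffine.Point) :
    heightPairing (n • P) Q = n * heightPairing P Q := by
  have h := (par_canonicalHeight W).polar_zsmul_left n P Q
  rw [zsmul_eq_mul] at h
  simp only [QuadraticMap.polar] at h
  rw [heightPairing, heightPairing, h]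
  ring

end General

section NumberField

variable {K : Type*} [Field K] [NumberField K] [DecidableEq K] (W : WeierstrassCurve K)
  [W.IsElliptic]

/-- Over a number field there are only finitely many points of bounded Néron-Tate height. -/
theorem finite_canonicalHeight_le (B : ℝ) :
    {P : W.toAffine.Point | canonicalHeight P ≤ B}.Finite := by
  obtain ⟨C, hC⟩ := abs_ht_add_sub_le W
  exact finite_canon_le hC (finite_ht_le W) B

instance northcott_canonicalHeight : Northcott (canonicalHeight : W.toAffine.Point → ℝ) :=
  ⟨fun B => finite_canonicalHeight_le W B⟩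

variable {W}

/-- **Over a number field, the Néron-Tate height of a point is zero if and only if it is a torsion
point.** -/
theorem canonicalHeight_eq_zero_iff {P : W.toAffine.Point} :
    canonicalHeight P = 0 ↔ IsOfFinAddOrder P :=
  (par_canonicalHeight W).eq_zero_iff (finite_canonicalHeight_le W) P

theorem canonicalHeight_pos_iff {P : W.toAffine.Point} :
    0 < canonicalHeight P ↔ ¬ IsOfFinAddOrder P := by
  rw [← canonicalHeight_eq_zero_iff, (canonicalHeight_nonneg P).lt_iff_ne']

variable (W) in
/-- The Néron-Tate heights of the points of infinite order are bounded from below by a positive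
number. -/
theorem exists_pos_le_canonicalHeight :
    ∃ ε : ℝ, 0 < ε ∧ ∀ P : W.toAffine.Point, ¬ IsOfFinAddOrder P → ε ≤ canonicalHeight P :=
  (par_canonicalHeight W).exists_pos_le canonicalHeight_nonneg (finite_canonicalHeight_le W)

variable {ι : Type*} [Fintype ι]

/-- **The matrix of the height pairing on independent points is positive definite.** -/
theorem heightPairing_posDef {v : ι → W.toAffine.Point} (hv : LinearIndependent ℤ v) :
    (Matrix.of fun i j => heightPairing (v i) (v j)).PosDef :=
  (par_canonicalHeight W).gram_posDef canonicalHeight_nonneg (finite_canonicalHeight_le W) hv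

/-- **The regulator of independent points is positive.** -/
theorem heightPairing_det_pos [DecidableEq ι] {v : ι → W.toAffine.Point}
    (hv : LinearIndependent ℤ v) :
    0 < (Matrix.of fun i j => heightPairing (v i) (v j)).det :=
  (heightPairing_posDef hv).det_pos

end NumberField

end Fermat.Agent.Cor.MordellWeil
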