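import Fermat.Agent.Corollaries.MordellWeil.BasisModTorsion
import Fermat.Agent.Corollaries.MordellWeil.Canonical
import Fermat.Agent.Corollaries.MordellWeil.Main

/-!
# The regulator and the number of points of bounded height (Néron)

`W` an elliptic curve over a number field `K`, `r` the rank of the group `E(K)` of its points.

* `regulator W`: the determinant of the height pairing on a basis of `E(K)` modulo torsion; it is
  positive (`regulator_pos`) and does not depend on the basis (`det_heightPairing_eq_regulator`);
* `tendsto_card_canonicalHeight_le`, `tendsto_card_ht_le`: **the number of points `P` with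
  `ĥ(P) ≤ B`, and the number of points with `h(P) ≤ B`, divided by `B ^ (r / 2)`, tend to
  `#E(K)_tors vol(Bʳ) / √(regulator W)`**;
* `tendsto_card_rat`: for `K = ℚ` in terms of numerators and denominators.
-/

namespace Fermat.Agent.Cor.MordellWeil

open Filter Topology Height WeierstrassCurve

variable {K : Type*} [Field K] [NumberField K] [DecidableEq K] (W : WeierstrassCurve K)
  [W.IsElliptic]

/-- The group of points of an elliptic curve over a number field has a basis modulo torsion. -/
theorem exists_basis : ∃ v : Fin (Module.finrank ℤ W.toAffine.Point) → W.toAffine.Point,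
    IsBasisModTorsion v := by
  have := mordell_weil K W
  exact exists_isBasisModTorsion _

/-- **The regulator** of an elliptic curve over a number field: the determinant of the height
pairing on a basis of the group of points modulo torsion. -/
noncomputable def regulator : ℝ :=
  (Matrix.of fun i j =>
    heightPairing ((exists_basis W).choose i) ((exists_basis W).choose j)).det

/-- The regulator is positive. -/
theorem regulator_pos : 0 < regulator W :=
  heightPairing_det_pos (exists_basis W).choose_spec.linearIndependent

variable {W} in
/-- **The regulator may be computed with every basis of the group of points modulo torsion.** -/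
theorem det_heightPairing_eq_regulator {ι : Type*} [Fintype ι] [DecidableEq ι]
    {v : ι → W.toAffine.Point} (hv : IsBasisModTorsion v) :
    (Matrix.of fun i j => heightPairing (v i) (v j)).det = regulator W :=
  gram_det_eq (par_canonicalHeight W) canonicalHeight_nonneg (finite_canonicalHeight_le W) hv
    (exists_basis W).choose_spec

/-- **The number of points of bounded Néron-Tate height.** -/
theorem tendsto_card_canonicalHeight_le :
    Tendsto (fun B : ℝ => (Nat.card {P : W.toAffine.Point // canonicalHeight P ≤ B} : ℝ) /
      B ^ ((Module.finrank ℤ W.toAffine.Point : ℝ) / 2)) atTop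
      (𝓝 (Nat.card (AddCommGroup.torsion W.toAffine.Point) *
        (ballVolume (Module.finrank ℤ W.toAffine.Point) / √(regulator W)))) :=
  tendsto_card_par_le (par_canonicalHeight W) canonicalHeight_nonneg
    (finite_canonicalHeight_le W) (exists_basis W).choose_spec

/-- **Néron's theorem: the number of points of bounded (logarithmic) naive height.** -/
theorem tendsto_card_ht_le :
    Tendsto (fun B : ℝ => (Nat.card {P : W.toAffine.Point // ht P ≤ B} : ℝ) /
      B ^ ((Module.finrank ℤ W.toAffine.Point : ℝ) / 2)) atTop
      (𝓝 (Nat.card (AddCommGroup.torsion W.toAffine.Point) *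
        (ballVolume (Module.finrank ℤ W.toAffine.Point) / √(regulator W)))) := by
  obtain ⟨C, hC⟩ := exists_abs_canonicalHeight_sub_le W
  exact tendsto_card_le_of_abs_sub_le (par_canonicalHeight W) canonicalHeight_nonneg
    (finite_canonicalHeight_le W) (exists_basis W).choose_spec hC

/-- The number of points whose multiplicative height `H(P) = exp h(P)` is at most `X`, divided by
`(log X) ^ (r / 2)`. -/
theorem tendsto_card_mulHeight_le :
    Tendsto (fun X : ℝ => (Nat.card {P : W.toAffine.Point // mulHeight P.xRep ≤ X} : ℝ) /
      Real.log X ^ ((Module.finrank ℤ W.toAffine.Point : ℝ) / 2)) atTop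
      (𝓝 (Nat.card (AddCommGroup.torsion W.toAffine.Point) *
        (ballVolume (Module.finrank ℤ W.toAffine.Point) / √(regulator W)))) := by
  refine ((tendsto_card_ht_le W).comp Real.tendsto_log_atTop).congr' ?_
  filter_upwards [eventually_gt_atTop 0] with X hX
  rw [Function.comp_apply]
  congr 2
  refine Nat.card_congr (Equiv.subtypeEquivRight fun P => ?_)
  rw [ht, logHeight_eq_log_mulHeight]
  exact Real.log_le_log_iff (mulHeight_pos _) hX

/-- **The number of rational points of an elliptic curve over `ℚ`**: the points `(x, y)` such that
the numerator and the denominator of `x` are at most `X` in absolute value, and the point at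
infinity, are `~ c (log X) ^ (r / 2)` in number,
`c = #E(ℚ)_tors vol(Bʳ) / √(regulator)`, `r` the rank. -/
theorem tendsto_card_rat (W : WeierstrassCurve ℚ) [W.IsElliptic] :
    Tendsto (fun X : ℝ => (Nat.card {P : W.toAffine.Point //
        ∀ (x y : ℚ) (h : W.toAffine.Nonsingular x y), P = .some x y h →
          ((max x.num.natAbs x.den : ℕ) : ℝ) ≤ X} : ℝ) /
      Real.log X ^ ((Module.finrank ℤ W.toAffine.Point : ℝ) / 2)) atTop
      (𝓝 (Nat.card (AddCommGroup.torsion W.toAffine.Point) *
        (ballVolume (Module.finrank ℤ W.toAffine.Point) / √(regulator W)))) := by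
  refine (tendsto_card_mulHeight_le W).congr' ?_
  filter_upwards [eventually_ge_atTop 1] with X hX
  congr 2
  refine Nat.card_congr (Equiv.subtypeEquivRight fun P => ?_)
  match P with
  | 0 =>
    rw [Affine.Point.xRep_zero, mulHeight_swap, ← mulHeight₁_eq_mulHeight, mulHeight₁_zero]
    exact ⟨fun _ x y h h0 => (Affine.Point.some_ne_zero h h0.symm).elim, fun _ => hX⟩
  | .some x y h =>
    rw [Affine.Point.xRep_some, ← mulHeight₁_eq_mulHeight, Rat.mulHeight₁_eq_max]
    constructor
    · rintro h1 x' y' h' he
      obtain ⟨rfl, rfl⟩ := (Affine.Point.some.injEq _ _ _ _ _ _).mp he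
      exact h1
    · exact fun h1 => h1 x y h rfl

end Fermat.Agent.Cor.MordellWeil
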