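import Mathlib
import Fermat.Agent.Corollaries.MordellWeil.Canonical

/-!
# Independence of points and the height pairing

A finite family of points of an elliptic curve over a number field is linearly independent over
`ℤ` if and only if the determinant of the matrix of the height pairing is not zero.
-/

set_option autoImplicit false

namespace Fermat.Agent.Cor.MordellWeil

open WeierstrassCurve Matrix

section General

variable {K : Type*} [Field K] [Height.AdmissibleAbsValues K] [DecidableEq K]
  {W : WeierstrassCurve K} [W.IsElliptic] {ι : Type*} [Fintype ι]

theorem heightPairing_zero_left (Q : W.toAffine.Point) :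
    heightPairing (0 : W.toAffine.Point) Q = 0 := by
  have h := heightPairing_add_left (0 : W.toAffine.Point) 0 Q
  rw [add_zero] at h
  linarith

omit [Fintype ι] in
theorem heightPairing_sum_zsmul_left (s : Finset ι) (n : ι → ℤ) (v : ι → W.toAffine.Point)
    (Q : W.toAffine.Point) :
    heightPairing (∑ i ∈ s, n i • v i) Q = ∑ i ∈ s, (n i : ℝ) * heightPairing (v i) Q := by
  classical
  induction s using Finset.induction_on with
  | empty => simp only [Finset.sum_empty, heightPairing_zero_left]
  | insert a s ha ih =>
    rw [Finset.sum_insert ha, Finset.sum_insert ha, heightPairing_add_left,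
      heightPairing_zsmul_left, ih]

/-- A family of points with non-zero Gram determinant is linearly independent over `ℤ`. -/
theorem linearIndependent_of_heightPairing_det_ne_zero [DecidableEq ι]
    {v : ι → W.toAffine.Point}
    (h : (Matrix.of fun i j => heightPairing (v i) (v j)).det ≠ 0) : LinearIndependent ℤ v := by
  rw [Fintype.linearIndependent_iff]
  intro n hn
  have h1 : (fun i => (n i : ℝ)) ᵥ* (Matrix.of fun i j => heightPairing (v i) (v j)) = 0 := by
    funext j
    have h2 := heightPairing_sum_zsmul_left Finset.univ n v (v j)
    rw [hn, heightPairing_zero_left] at h2
    simp only [vecMul, dotProduct, Matrix.of_apply, Pi.zero_apply]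
    exact h2.symm
  have h3 := Matrix.eq_zero_of_vecMul_eq_zero h h1
  intro i
  have h4 : (n i : ℝ) = 0 := congrFun h3 i
  exact_mod_cast h4

end General

/-- **Independence of points.** Finitely many points of an elliptic curve over a number field are
linearly independent over `ℤ` if and only if the determinant of the matrix of the height pairing
is not zero. -/
theorem linearIndependent_iff_heightPairing_det_ne_zero {K : Type*} [Field K] [NumberField K]
    [DecidableEq K] {W : WeierstrassCurve K} [W.IsElliptic] {ι : Type*} [Fintype ι]
    [DecidableEq ι] (v : ι → W.toAffine.Point) :
    LinearIndependent ℤ v ↔ (Matrix.of fun i j => heightPairing (v i) (v j)).det ≠ 0 :=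
  ⟨fun h => (heightPairing_det_pos h).ne', linearIndependent_of_heightPairing_det_ne_zero⟩

end Fermat.Agent.Cor.MordellWeil
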