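import Fermat.Agent.Corollaries.MordellWeil.Abscissa
import Fermat.Agent.Corollaries.MordellWeil.Count

/-!
# Elliptic curves over number fields have infinite rank over the algebraic closure

`W` an elliptic curve over a number field `K`, `Ω` the algebraic closure of `K`. For every natural
number `n` let `pt W n` be a point of `E(Ω)` with abscissa `n`, and `ordinate W n` its ordinate; it
is defined over an extension of `K` of degree at most two.

* `infinite_ordinate_notMem`: no number field `L` contains almost all the ordinates (otherwise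
  there were `≫ X ^ (1 / [L : ℚ])` points of `E(L)` of height at most `X`, against Néron's
  `(log X) ^ (r / 2)`);
* `exists_linearIndependent_points`: **there are infinitely many linearly independent points of `E(Ω)`
  whose abscissas are natural numbers**; in particular `E(Ω)` has infinite rank
  (`aleph0_le_rank`, Frey and Jarden);
* `infinite_quadratic_rank_lt`: **there are infinitely many quadratic extensions `F` of `K` with
  `rank E(F) > rank E(K)`** (that is: infinitely many quadratic twists of `E` have positive rank).
-/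

namespace Fermat.Agent.Cor.MordellWeil

open Filter Topology WeierstrassCurve WeierstrassCurve.Affine Height IntermediateField

noncomputable section

variable {K : Type*} [Field K] [NumberField K] (W : WeierstrassCurve K) [W.IsElliptic]

local notation "Ω" => AlgebraicClosure K

omit [NumberField K] in
lemma isElliptic_baseChange (F : Type*) [Field F] [Algebra K F] : (W⁄F).IsElliptic :=
  inferInstanceAs (W.map (algebraMap K F)).IsElliptic

/-- Every element of `K` is the abscissa of a point over the algebraic closure. -/
theorem exists_nonsingular (x : K) :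
    ∃ y : Ω, (W⁄Ω).toAffine.Nonsingular (algebraMap K Ω x) y := by
  have hE := isElliptic_baseChange W Ω
  set X : Ω := algebraMap K Ω x
  obtain ⟨s, hs⟩ := IsAlgClosed.exists_eq_mul_self
    (((W⁄Ω).a₁ * X + (W⁄Ω).a₃) ^ 2 + 4 * (X ^ 3 + (W⁄Ω).a₂ * X ^ 2 + (W⁄Ω).a₄ * X + (W⁄Ω).a₆))
  refine ⟨(s - ((W⁄Ω).a₁ * X + (W⁄Ω).a₃)) / 2, ?_⟩
  rw [← equation_iff_nonsingular, equation_iff]
  have h2 : (2 : Ω) ≠ 0 := two_ne_zero
  field_simp
  linear_combination -hs

/-- An ordinate over the abscissa `n`. -/
def ordinate (n : ℕ) : Ω := (exists_nonsingular W (n : K)).choose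

lemma nonsingular_ordinate (n : ℕ) :
    (W⁄Ω).toAffine.Nonsingular (algebraMap K Ω n) (ordinate W n) :=
  (exists_nonsingular W (n : K)).choose_spec

/-- A point of `E(Ω)` with abscissa `n`. -/
def pt (n : ℕ) : (W⁄Ω).toAffine.Point :=
  Point.some (algebraMap K Ω n) (ordinate W n) (nonsingular_ordinate W n)

/-- The point over `L` with abscissa `n`, if the ordinate is in `L`. -/
lemma nonsingular_of_mem (L : IntermediateField K Ω) {n : ℕ} (h : ordinate W n ∈ L) :
    (W⁄L).toAffine.Nonsingular (algebraMap K L n) ⟨ordinate W n, h⟩ := by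
  have h1 := (W.toAffine.baseChange_nonsingular (A := L) (B := Ω) (f := L.val)
    L.val.injective (algebraMap K L n) ⟨ordinate W n, h⟩).mp
  exact h1 (nonsingular_ordinate W n)

open scoped Classical in
/-- **No number field contains almost all the ordinates.** -/
theorem infinite_ordinate_notMem (L : IntermediateField K Ω) [FiniteDimensional K L] :
    {n : ℕ | ordinate W n ∉ L}.Infinite := by
  intro hfin
  have hL : NumberField L := NumberField.of_module_finite K L
  have hE := isElliptic_baseChange W L
  set d := Module.finrank ℚ L with hd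
  have hd0 : 0 < d := Module.finrank_pos
  set c : ℕ := hfin.toFinset.card with hc
  set ρ : ℝ := (Module.finrank ℤ (W⁄L).toAffine.Point : ℝ) / 2 with hρ
  have key := tendsto_card_mulHeight_le (W⁄L)
  -- the number of points of height at most `t ^ d` is at least `t - c`
  have hcount : ∀ t : ℕ, (t : ℝ) - c ≤
      (Nat.card {P : (W⁄L).toAffine.Point // mulHeight P.xRep ≤ (t : ℝ) ^ d} : ℝ) := by
    intro t
    have hfinP : Finite {P : (W⁄L).toAffine.Point // mulHeight P.xRep ≤ (t : ℝ) ^ d} := by
      refine ((finite_ht_le (W⁄L) (Real.log ((t : ℝ) ^ d))).subset fun P hP => ?_).to_subtype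
      change logHeight P.xRep ≤ _
      rw [logHeight_eq_log_mulHeight]
      exact Real.log_le_log (mulHeight_pos _) hP
    have h1 : ((Finset.Icc 1 t).filter fun n => ordinate W n ∈ L).card ≤
        Nat.card {P : (W⁄L).toAffine.Point // mulHeight P.xRep ≤ (t : ℝ) ^ d} := by
      rw [← Fintype.card_coe, ← Nat.card_eq_fintype_card]
      refine Nat.card_le_card_of_injective (fun n => ⟨Point.some _ _
        (nonsingular_of_mem W L (Finset.mem_filter.mp n.2).2), ?_⟩) fun n m hnm => ?_
      · rw [Point.xRep_some, ← mulHeight₁_eq_mulHeight, map_natCast]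
        have hn := Finset.mem_Icc.mp (Finset.mem_filter.mp n.2).1
        refine (mulHeight₁_natCast_le (K := L) (by omega)).trans ?_
        exact pow_le_pow_left₀ (Nat.cast_nonneg _) (Nat.cast_le.mpr hn.2) _
      · have h2 := congrArg Subtype.val hnm
        have h3 := (Point.some.inj h2).1
        rw [map_natCast, map_natCast] at h3
        exact Subtype.ext (Nat.cast_injective h3)
    have h2 : t ≤ ((Finset.Icc 1 t).filter fun n => ordinate W n ∈ L).card + c := by
      have h3 : (Finset.Icc 1 t).card =
          ((Finset.Icc 1 t).filter fun n => ordinate W n ∈ L).card +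
          ((Finset.Icc 1 t).filter fun n => ¬ ordinate W n ∈ L).card :=
        (Finset.card_filter_add_card_filter_not _).symm
      have h5 : ((Finset.Icc 1 t).filter fun n => ¬ ordinate W n ∈ L).card ≤ c :=
        Finset.card_le_card fun n hn =>
          hfin.mem_toFinset.mpr (Finset.mem_filter.mp hn).2
      rw [Nat.card_Icc] at h3
      omega
    have h3 : (t : ℝ) ≤
        (((Finset.Icc 1 t).filter fun n => ordinate W n ∈ L).card : ℝ) + c := by
      exact_mod_cast h2
    have h4 : (((Finset.Icc 1 t).filter fun n => ordinate W n ∈ L).card : ℝ) ≤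
      (Nat.card {P : (W⁄L).toAffine.Point // mulHeight P.xRep ≤ (t : ℝ) ^ d} : ℝ) := by
      exact_mod_cast h1
    linarith
  -- the two asymptotics contradict each other
  have hpow : Tendsto (fun t : ℕ => (t : ℝ) ^ d) atTop atTop :=
    (tendsto_pow_atTop hd0.ne').comp tendsto_natCast_atTop_atTop
  have h1 := key.comp hpow
  have hlog : Tendsto (fun t : ℕ => Real.log ((t : ℝ) ^ d)) atTop atTop :=
    Real.tendsto_log_atTop.comp hpow
  have h2 : Tendsto (fun s : ℝ => (Real.exp ((d : ℝ)⁻¹ * s) - c) / s ^ ρ) atTop atTop := by
    have h3 := tendsto_exp_mul_div_rpow_atTop ρ (d : ℝ)⁻¹ (by positivity)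
    refine tendsto_atTop_mono' _ ?_ (tendsto_atTop_add_const_right _ (-(c : ℝ)) h3)
    filter_upwards [eventually_ge_atTop 1] with s hs
    have h4 : 1 ≤ s ^ ρ := Real.one_le_rpow hs (by positivity)
    rw [sub_div, ← sub_eq_add_neg]
    have h5 : (c : ℝ) / s ^ ρ ≤ c := div_le_self (Nat.cast_nonneg _) h4
    linarith
  refine not_tendsto_atTop_of_tendsto_nhds h1 (tendsto_atTop_mono' _ ?_ (h2.comp hlog))
  filter_upwards [eventually_gt_atTop 1] with t ht
  have ht' : (1 : ℝ) < t := Nat.one_lt_cast.mpr ht
  have h5 : 0 < Real.log ((t : ℝ) ^ d) := Real.log_pos (one_lt_pow₀ ht' hd0.ne')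
  have h6 : Real.exp ((d : ℝ)⁻¹ * Real.log ((t : ℝ) ^ d)) = t := by
    rw [Real.log_pow, inv_mul_cancel_left₀ (Nat.cast_ne_zero.mpr hd0.ne'),
      Real.exp_log (by linarith)]
  simp only [Function.comp_apply]
  rw [h6]
  have h7 := Real.rpow_pos_of_pos h5 ρ
  gcongr
  exact hcount t

/-! ### The sequence of points -/

/-- Only finitely many of the points `pt W n` are torsion points. -/
theorem finite_torsion_pt [DecidableEq Ω] : {n : ℕ | IsOfFinAddOrder (pt W n)}.Finite := by
  refine ((finite_torsion_abscissa W Ω).preimage
    (Nat.cast_injective (R := K)).injOn).subset fun n hn => ?_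
  exact ⟨_, nonsingular_ordinate W n, hn⟩

/-- The field generated by the ordinates over the abscissas in `s`. -/
def fieldOf (s : Finset ℕ) : IntermediateField K Ω :=
  IntermediateField.adjoin K (ordinate W '' s)

instance (s : Finset ℕ) : FiniteDimensional K (fieldOf W s) := by
  have : Finite (ordinate W '' (s : Set ℕ)) := (s.finite_toSet.image _).to_subtype
  exact IntermediateField.finiteDimensional_adjoin fun x _ => Algebra.IsIntegral.isIntegral x

lemma ordinate_mem_fieldOf {s : Finset ℕ} {n : ℕ} (h : n ∈ s) : ordinate W n ∈ fieldOf W s :=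
  IntermediateField.subset_adjoin _ _ ⟨n, h, rfl⟩

lemma fieldOf_mono {s t : Finset ℕ} (h : s ⊆ t) : fieldOf W s ≤ fieldOf W t :=
  IntermediateField.adjoin.mono _ _ _ (Set.image_mono (Finset.coe_subset.mpr h))

open scoped Classical in
/-- The next abscissa. -/
theorem exists_next (s : Finset ℕ) :
    ∃ n : ℕ, ordinate W n ∉ fieldOf W s ∧ ¬ IsOfFinAddOrder (pt W n) := by
  obtain ⟨n, hn, hn'⟩ :=
    ((infinite_ordinate_notMem W (fieldOf W s)).sdiff (finite_torsion_pt W)).nonempty
  exact ⟨n, hn, hn'⟩

open scoped Classical in
/-- The next abscissa. -/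
def next (s : Finset ℕ) : ℕ := (exists_next W s).choose

/-- The sets of the first abscissas. -/
def firsts : ℕ → Finset ℕ
  | 0 => ∅
  | k + 1 => insert (next W (firsts k)) (firsts k)

/-- The sequence of abscissas. -/
def abscissa (k : ℕ) : ℕ := next W (firsts W k)

lemma firsts_succ (k : ℕ) : firsts W (k + 1) = insert (abscissa W k) (firsts W k) := rfl

lemma abscissa_mem_firsts {j k : ℕ} (h : j < k) : abscissa W j ∈ firsts W k := by
  induction k with
  | zero => omega
  | succ k ih =>
    rw [firsts_succ, Finset.mem_insert]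
    rcases Nat.lt_succ_iff_lt_or_eq.mp h with h | rfl
    · exact Or.inr (ih h)
    · exact Or.inl rfl

lemma ordinate_abscissa_notMem (k : ℕ) : ordinate W (abscissa W k) ∉ fieldOf W (firsts W k) :=
  (exists_next W (firsts W k)).choose_spec.1

open scoped Classical in
lemma not_isOfFinAddOrder_pt_abscissa (k : ℕ) : ¬ IsOfFinAddOrder (pt W (abscissa W k)) :=
  (exists_next W (firsts W k)).choose_spec.2

/-! ### The action of the Galois group -/

/-- An element which is not in the intermediate field `L` is moved by an automorphism over `L`. -/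
lemma exists_apply_ne (L : IntermediateField K Ω) {y : Ω} (hy : y ∉ L) :
    ∃ σ : Ω ≃ₐ[K] Ω, (∀ x ∈ L, σ x = x) ∧ σ y ≠ y := by
  have h1 := InfiniteGalois.fixedField_fixingSubgroup L
  rw [← h1, IntermediateField.mem_fixedField_iff] at hy
  push Not at hy
  obtain ⟨σ, hσ, hne⟩ := hy
  exact ⟨σ, (IntermediateField.mem_fixingSubgroup_iff L σ).mp hσ, hne⟩

/-- A multiple `a P` which is equal to its negative vanishes only if `a = 0`, if `P` has infinite
order. -/
lemma eq_zero_of_neg_eq {G : Type*} [AddCommGroup G] {P : G} (hP : ¬ IsOfFinAddOrder P) {a : ℤ}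
    (h : a • P = -(a • P)) : a = 0 := by
  by_contra ha
  refine hP (isOfFinAddOrder_iff_zsmul_eq_zero.mpr ⟨2 * a, mul_ne_zero two_ne_zero ha, ?_⟩)
  rw [mul_smul, two_smul]
  nth_rw 2 [h]
  exact add_neg_cancel _

/-- Elements of infinite order each of which can be mapped to its negative by an endomorphism
which fixes the previous ones are linearly independent. -/
lemma linearIndependent_of_moved {G : Type*} [AddCommGroup G] (P : ℕ → G)
    (hP : ∀ k, ¬ IsOfFinAddOrder (P k))
    (hf : ∀ m, ∃ f : G →+ G, (∀ i < m, f (P i) = P i) ∧ f (P m) = -P m) :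
    LinearIndependent ℤ P := by
  rw [linearIndependent_iff']
  intro s g hsum
  by_contra hne
  push Not at hne
  have hne' : (s.filter fun i => g i ≠ 0).Nonempty := by
    obtain ⟨i, hi, hgi⟩ := hne
    exact ⟨i, Finset.mem_filter.mpr ⟨hi, hgi⟩⟩
  set m := (s.filter fun i => g i ≠ 0).max' hne' with hm
  have hmem := Finset.max'_mem _ hne'
  rw [← hm, Finset.mem_filter] at hmem
  obtain ⟨f, hfix, hfm⟩ := hf m
  -- the terms with index less than `m` are fixed, the ones with index greater than `m` vanish
  have hterm : ∀ i ∈ s.erase m, f (g i • P i) = g i • P i := by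
    intro i hi
    rw [Finset.mem_erase] at hi
    by_cases hg : g i = 0
    · rw [hg, zero_smul, map_zero]
    · have hle : i ≤ m := Finset.le_max' _ _ (Finset.mem_filter.mpr ⟨hi.2, hg⟩)
      rw [map_zsmul, hfix i (lt_of_le_of_ne hle hi.1)]
  have h1 : g m • P m = -∑ i ∈ s.erase m, g i • P i := by
    rw [eq_neg_iff_add_eq_zero, Finset.add_sum_erase s (fun i => g i • P i) hmem.1]
    exact hsum
  have h2 := congrArg f h1
  rw [map_neg, map_sum, Finset.sum_congr rfl hterm, ← h1, map_zsmul, hfm, smul_neg] at h2
  exact hmem.2 (eq_zero_of_neg_eq (hP m) h2.symm)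

section Action

variable [DecidableEq (AlgebraicClosure K)]

omit [NumberField K] [W.IsElliptic] in
/-- The action of an automorphism of `Ω` over `K` on the points. -/
def act (σ : Ω ≃ₐ[K] Ω) : (W⁄Ω).toAffine.Point →+ (W⁄Ω).toAffine.Point :=
  Point.map (W' := W.toAffine) σ.toAlgHom

omit [NumberField K] [W.IsElliptic] in
lemma act_some (σ : Ω ≃ₐ[K] Ω) {x y : Ω} (h : (W⁄Ω).toAffine.Nonsingular x y) :
    act W σ (Point.some x y h) = Point.some (σ x) (σ y)
      ((W.toAffine.baseChange_nonsingular (f := σ.toAlgHom) σ.injective x y).mpr h) := rfl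

/-- An automorphism fixes the point `pt W n` if it fixes the ordinate. -/
lemma act_pt_of_eq (σ : Ω ≃ₐ[K] Ω) {n : ℕ} (h : σ (ordinate W n) = ordinate W n) :
    act W σ (pt W n) = pt W n := by
  rw [pt, act_some]
  congr 1
  exact σ.commutes _

/-- An automorphism maps the point `pt W n` to its negative if it moves the ordinate. -/
lemma act_pt_of_ne (σ : Ω ≃ₐ[K] Ω) {n : ℕ} (h : σ (ordinate W n) ≠ ordinate W n) :
    act W σ (pt W n) = -pt W n := by
  have h1 : σ (algebraMap K Ω n) = algebraMap K Ω n := σ.commutes _
  have h2 := (Point.X_eq_iff (h₁ := (W.toAffine.baseChange_nonsingular (f := σ.toAlgHom)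
    σ.injective _ _).mpr (nonsingular_ordinate W n)) (h₂ := nonsingular_ordinate W n)).mp h1
  rcases h2 with h2 | h2
  · exact (h (Point.some.inj h2).2).elim
  · exact h2

omit [W.IsElliptic] [NumberField K] in
/-- An automorphism fixes the points with coordinates in `K`. -/
lemma act_map (σ : Ω ≃ₐ[K] Ω) [DecidableEq K] (P : (W⁄K).toAffine.Point) :
    act W σ (Point.map (W' := W.toAffine) (Algebra.ofId K Ω) P) =
      Point.map (W' := W.toAffine) (Algebra.ofId K Ω) P := by
  match P with
  | 0 => rfl
  | .some x y h =>
    rw [Point.map_some, act_some]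
    congr 1
    · exact σ.commutes x
    · exact σ.commutes y

/-- **The points `pt W (abscissa W k)`, `k = 0, 1, 2, …`, are linearly independent.** -/
theorem linearIndependent_pt_abscissa :
    LinearIndependent ℤ fun k : ℕ => pt W (abscissa W k) := by
  have hP : ∀ k, ¬ IsOfFinAddOrder (pt W (abscissa W k)) := by
    intro k hk
    refine not_isOfFinAddOrder_pt_abscissa W k ?_
    convert hk
  refine linearIndependent_of_moved _ hP fun m => ?_
  obtain ⟨σ, hσ, hσm⟩ := exists_apply_ne (fieldOf W (firsts W m)) (ordinate_abscissa_notMem W m)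
  exact ⟨act W σ, fun i hi => act_pt_of_eq W σ
    (hσ _ (ordinate_mem_fieldOf W (abscissa_mem_firsts W hi))), act_pt_of_ne W σ hσm⟩

/-- **There are infinitely many linearly independent points of `E(Ω)`, `Ω` the algebraic closure
of the number field `K`, whose abscissas are natural numbers**; they are defined over quadratic
extensions of `K`. -/
theorem exists_linearIndependent_points :
    ∃ P : ℕ → (W⁄(AlgebraicClosure K)).toAffine.Point, LinearIndependent ℤ P ∧
      ∀ i, ∃ (n : ℕ) (y : AlgebraicClosure K)
        (h : (W⁄(AlgebraicClosure K)).toAffine.Nonsingular (algebraMap K _ n) y),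
        P i = Point.some (algebraMap K _ n) y h :=
  ⟨_, linearIndependent_pt_abscissa W, fun _ => ⟨_, _, _, rfl⟩⟩

/-- **An elliptic curve over a number field has infinite rank over the algebraic closure.** -/
theorem aleph0_le_rank :
    Cardinal.aleph0 ≤ Module.rank ℤ (W⁄(AlgebraicClosure K)).toAffine.Point := by
  have h := (linearIndependent_pt_abscissa W).cardinal_lift_le_rank
  rw [Cardinal.mk_nat, Cardinal.lift_aleph0] at h
  simpa using h

end Action

/-! ### Quadratic extensions in which the rank grows -/

/-- The extension of `K` generated by the ordinate over the `k`-th abscissa. -/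
def quad (k : ℕ) : IntermediateField K Ω :=
  IntermediateField.adjoin K {ordinate W (abscissa W k)}

lemma ordinate_mem_quad (k : ℕ) : ordinate W (abscissa W k) ∈ quad W k :=
  IntermediateField.mem_adjoin_simple_self K _

lemma quad_le_fieldOf {j k : ℕ} (h : j < k) : quad W j ≤ fieldOf W (firsts W k) :=
  IntermediateField.adjoin_simple_le_iff.mpr (ordinate_mem_fieldOf W (abscissa_mem_firsts W h))

lemma quad_injective : Function.Injective (quad W) := by
  have key : ∀ j k, j < k → quad W j ≠ quad W k := fun j k hjk h =>
    ordinate_abscissa_notMem W k (quad_le_fieldOf W hjk (h ▸ ordinate_mem_quad W k))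
  intro j k h
  rcases lt_trichotomy j k with hlt | rfl | hlt
  · exact (key j k hlt h).elim
  · rfl
  · exact (key k j hlt h.symm).elim

instance finiteDimensional_quad (k : ℕ) : FiniteDimensional K (quad W k) :=
  IntermediateField.adjoin.finiteDimensional (Algebra.IsIntegral.isIntegral _)

/-- The fields `quad W k` are quadratic extensions of `K`. -/
theorem finrank_quad (k : ℕ) : Module.finrank K (quad W k) = 2 := by
  set y := ordinate W (abscissa W k) with hy
  have hint : IsIntegral K y := Algebra.IsIntegral.isIntegral y
  have h1 : Module.finrank K (quad W k) = (minpoly K y).natDegree :=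
    IntermediateField.adjoin.finrank hint
  have h2 : Module.finrank K (quad W k) ≠ 1 := by
    intro h
    have h3 := IntermediateField.finrank_adjoin_simple_eq_one_iff.mp h
    exact ordinate_abscissa_notMem W k ((bot_le : (⊥ : IntermediateField K Ω) ≤ _) h3)
  have h3 : 0 < Module.finrank K (quad W k) := Module.finrank_pos
  -- the quadratic equation of the ordinate
  set n : K := (abscissa W k : K) with hn
  set p : Polynomial K := Polynomial.X ^ 2 + Polynomial.C (W.a₁ * n + W.a₃) * Polynomial.X -
    Polynomial.C (n ^ 3 + W.a₂ * n ^ 2 + W.a₄ * n + W.a₆) with hp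
  have hnat : p.natDegree = 2 := by
    rw [hp]
    compute_degree!
  have hmonic : p.Monic := by
    rw [hp]
    monicity!
  have hroot : Polynomial.aeval y p = 0 := by
    have h4 := (nonsingular_ordinate W (abscissa W k)).1
    rw [equation_iff] at h4
    have a1 : (W⁄Ω).a₁ = algebraMap K Ω W.a₁ := rfl
    have a2 : (W⁄Ω).a₂ = algebraMap K Ω W.a₂ := rfl
    have a3 : (W⁄Ω).a₃ = algebraMap K Ω W.a₃ := rfl
    have a4 : (W⁄Ω).a₄ = algebraMap K Ω W.a₄ := rfl
    have a6 : (W⁄Ω).a₆ = algebraMap K Ω W.a₆ := rfl
    rw [a1, a2, a3, a4, a6] at h4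
    rw [hp]
    simp only [map_add, map_sub, map_mul, map_pow, Polynomial.aeval_X, Polynomial.aeval_C]
    linear_combination h4
  have h5 : (minpoly K y).natDegree ≤ 2 := by
    have h6 := Polynomial.natDegree_le_of_dvd (minpoly.dvd K y hroot) hmonic.ne_zero
    omega
  omega

/-- An independent family fixed by an endomorphism stays independent if an element of infinite
order is added which is mapped to its negative. -/
lemma linearIndependent_option {G κ : Type*} [AddCommGroup G] [Fintype κ] {P : G}
    (hP : ¬ IsOfFinAddOrder P) {u : κ → G} (hu : LinearIndependent ℤ u) (f : G →+ G)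
    (hfP : f P = -P) (hfu : ∀ i, f (u i) = u i) :
    LinearIndependent ℤ fun o : Option κ => o.elim P u := by
  rw [Fintype.linearIndependent_iff]
  intro g hg
  rw [Fintype.sum_option] at hg
  simp only [Option.elim_none, Option.elim_some] at hg
  have h1 := congrArg f hg
  rw [map_add, map_zsmul, hfP, map_sum, map_zero, smul_neg] at h1
  have h2 : ∑ i, f (g (some i) • u i) = ∑ i, g (some i) • u i :=
    Finset.sum_congr rfl fun i _ => by rw [map_zsmul, hfu]
  rw [h2] at h1
  have h3 : g none • P = -(g none • P) := add_right_cancel (hg.trans h1.symm)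
  have h4 : g none = 0 := eq_zero_of_neg_eq hP h3
  rw [h4, zero_smul, zero_add] at hg
  intro o
  match o with
  | none => exact h4
  | some i => exact Fintype.linearIndependent_iff.mp hu (fun i => g (some i)) hg i

open scoped Classical in
/-- The rank grows in an extension which contains the ordinate of a point of infinite order with
rational abscissa, but not rational itself. -/
theorem finrank_lt_of_mem (F : IntermediateField K Ω) [FiniteDimensional K F] {n : ℕ}
    (hF : ordinate W n ∈ F) (hn : ordinate W n ∉ (⊥ : IntermediateField K Ω))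
    (hP : ¬ IsOfFinAddOrder (pt W n)) :
    Module.finrank ℤ W.toAffine.Point < Module.finrank ℤ (W⁄F).toAffine.Point := by
  have hNF : NumberField F := NumberField.of_module_finite K F
  have hE := isElliptic_baseChange W F
  have hfg := mordell_weil F (W⁄F)
  have hfin : Module.Finite ℤ (W⁄F).toAffine.Point := Module.Finite.iff_addGroup_fg.mpr hfg
  obtain ⟨v, hv⟩ := exists_basis W
  obtain ⟨σ, -, hσ⟩ := exists_apply_ne ⊥ hn
  -- the maps `E(K) → E(F) → E(Ω)`
  let i₁ : (W⁄K).toAffine.Point →+ (W⁄F).toAffine.Point :=
    Point.map (W' := W.toAffine) (Algebra.ofId K F)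
  let i₂ : (W⁄F).toAffine.Point →+ (W⁄Ω).toAffine.Point :=
    Point.map (W' := W.toAffine) F.val
  let i₃ : (W⁄K).toAffine.Point →+ (W⁄Ω).toAffine.Point :=
    Point.map (W' := W.toAffine) (Algebra.ofId K Ω)
  have hcomp : ∀ x, i₂ (i₁ x) = i₃ x := fun x => by
    match x with
    | 0 => rfl
    | .some x y h => rfl
  let Q : (W⁄F).toAffine.Point := Point.some _ _ (nonsingular_of_mem W F hF)
  have hQ : i₂ Q = pt W n := rfl
  have hu : LinearIndependent ℤ fun i => i₃ (v i) :=
    hv.linearIndependent.map' i₃.toIntLinearMap (LinearMap.ker_eq_bot.mpr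
      (Point.map_injective (W' := W.toAffine) (Algebra.ofId K Ω)))
  have h1 := linearIndependent_option hP hu (act W σ) (act_pt_of_ne W σ hσ)
    fun i => act_map W σ (v i)
  have h2 : LinearIndependent ℤ fun o : Option (Fin (Module.finrank ℤ W.toAffine.Point)) =>
      o.elim Q fun i => i₁ (v i) := by
    refine LinearIndependent.of_comp i₂.toIntLinearMap ?_
    convert h1 using 1
    funext o
    match o with
    | none => exact hQ
    | some i => exact hcomp (v i)
  have h3 := h2.fintype_card_le_finrank
  rw [Fintype.card_option, Fintype.card_fin] at h3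
  omega

open scoped Classical in
/-- **The rank of an elliptic curve `E` over a number field `K` grows in infinitely many quadratic
extensions of `K`** (equivalently: infinitely many quadratic twists of `E` have positive rank). -/
theorem infinite_quadratic_rank_lt :
    {F : IntermediateField K (AlgebraicClosure K) | Module.finrank K F = 2 ∧
      Module.finrank ℤ W.toAffine.Point < Module.finrank ℤ (W⁄F).toAffine.Point}.Infinite := by
  refine Set.infinite_of_injective_forall_mem (quad_injective W) fun k => ⟨finrank_quad W k, ?_⟩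
  exact finrank_lt_of_mem W (quad W k) (ordinate_mem_quad W k)
    (fun h => ordinate_abscissa_notMem W k ((bot_le : (⊥ : IntermediateField K Ω) ≤ _) h))
    (not_isOfFinAddOrder_pt_abscissa W k)

end

end Fermat.Agent.Cor.MordellWeil
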