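import Mathlib.Analysis.Normed.Group.Basic
import Mathlib.Analysis.SpecificLimits.Normed
import Mathlib.LinearAlgebra.QuadraticForm.Basic
import Mathlib.Order.Northcott

/-!
# The parallelogram law on an abelian group

* `Par.toQuadraticMap`: a real function on an abelian group `G` with the parallelogram law
  `Q(x + y) + Q(x - y) = 2 (Q(x) + Q(y))` is a quadratic map `G → ℝ` over `ℤ`;
* `par_canon`, `abs_canon_sub_le`, `Par.eq_canon`: a function `h` which satisfies the parallelogram
  law up to a bounded quantity is at bounded distance from exactly one function with the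
  parallelogram law, the limit `canon h` of `h(2ⁿ x) / 4ⁿ` (Tate);
* `Par.finite_le`, `Par.eq_zero_iff`: if moreover `h` is bounded from below on `G` and has the
  Northcott property, then so has `canon h`, and `canon h x = 0` if and only if `x` has finite
  order.
-/

namespace Fermat.Agent.Cor.MordellWeil

open Filter Topology

variable {G : Type*} [AddCommGroup G]

/-- The parallelogram law. -/
def Par (Q : G → ℝ) : Prop := ∀ x y, Q (x + y) + Q (x - y) = 2 * (Q x + Q y)

namespace Par

variable {Q Q' : G → ℝ}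

lemma map_zero (h : Par Q) : Q 0 = 0 := by
  have := h 0 0
  rw [add_zero, sub_zero] at this
  linarith

lemma map_neg (h : Par Q) (x : G) : Q (-x) = Q x := by
  have := h 0 x
  rw [zero_add, zero_sub, h.map_zero] at this
  linarith

lemma map_sub_comm (h : Par Q) (x y : G) : Q (x - y) = Q (y - x) := by
  rw [← neg_sub, h.map_neg]

/-- The deviation from additivity is additive. -/
lemma polar_add_left (h : Par Q) (x x' y : G) :
    QuadraticMap.polar Q (x + x') y = QuadraticMap.polar Q x y + QuadraticMap.polar Q x' y := by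
  have e₁ := h (x + y) x'
  have e₂ := h x (y - x')
  have e₃ := h (x + x') y
  have e₄ := h x' y
  rw [show x + y + x' = x + x' + y by abel, show x + y - x' = x + (y - x') by abel] at e₁
  rw [show x - (y - x') = x + x' - y by abel] at e₂
  rw [h.map_sub_comm y x'] at e₂
  simp only [QuadraticMap.polar]
  linarith

lemma polar_comm (x y : G) : QuadraticMap.polar Q x y = QuadraticMap.polar Q y x :=
  QuadraticMap.polar_comm Q x y

/-- The deviation from additivity as a homomorphism. -/
noncomputable def polarHom (h : Par Q) (y : G) : G →+ ℝ :=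
  AddMonoidHom.mk' (fun x => QuadraticMap.polar Q x y) fun x x' => h.polar_add_left x x' y

lemma polar_zsmul_left (h : Par Q) (a : ℤ) (x y : G) :
    QuadraticMap.polar Q (a • x) y = a • QuadraticMap.polar Q x y :=
  map_zsmul (h.polarHom y) a x

lemma polar_self (h : Par Q) (x : G) : QuadraticMap.polar Q x x = 2 * Q x := by
  have := h x x
  rw [sub_self, h.map_zero] at this
  rw [QuadraticMap.polar]
  linarith

lemma map_zsmul (h : Par Q) (a : ℤ) (x : G) : Q (a • x) = (a * a : ℤ) • Q x := by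
  have e : 2 * Q (a • x) = 2 * ((a * a : ℤ) • Q x) := by
    rw [← h.polar_self, h.polar_zsmul_left, polar_comm, h.polar_zsmul_left, h.polar_self]
    simp only [zsmul_eq_mul]
    push_cast
    ring
  linarith

lemma map_nsmul (h : Par Q) (n : ℕ) (x : G) : Q (n • x) = (n : ℝ) ^ 2 * Q x := by
  rw [← natCast_zsmul, h.map_zsmul, zsmul_eq_mul]
  push_cast
  ring

/-- A function with the parallelogram law as a quadratic map over `ℤ`. -/
noncomputable def toQuadraticMap (h : Par Q) : QuadraticMap ℤ G ℝ :=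
  QuadraticMap.ofPolar Q (fun a x => h.map_zsmul a x) h.polar_add_left h.polar_zsmul_left

@[simp]
lemma toQuadraticMap_apply (h : Par Q) (x : G) : h.toQuadraticMap x = Q x := rfl

/-- Two functions with the parallelogram law whose difference is bounded are equal. -/
theorem eq_of_bounded (h : Par Q) (h' : Par Q') {B : ℝ} (hB : ∀ x, |Q x - Q' x| ≤ B) :
    Q = Q' := by
  funext x
  by_contra hne
  have hpos : 0 < |Q x - Q' x| := abs_pos.mpr (sub_ne_zero.mpr hne)
  obtain ⟨n, hn⟩ := exists_nat_gt (B / |Q x - Q' x|)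
  rw [div_lt_iff₀ hpos] at hn
  have h1 := hB ((n + 1) • x)
  rw [h.map_nsmul, h'.map_nsmul, ← mul_sub, abs_mul, abs_of_nonneg (by positivity)] at h1
  have h2 : (n : ℝ) ≤ ((n + 1 : ℕ) : ℝ) ^ 2 := by
    push_cast
    nlinarith [Nat.cast_nonneg (α := ℝ) n]
  nlinarith

/-- Elements of finite order are in the kernel. -/
lemma eq_zero_of_isOfFinAddOrder (h : Par Q) {x : G} (hx : IsOfFinAddOrder x) : Q x = 0 := by
  obtain ⟨n, hn, hnx⟩ := isOfFinAddOrder_iff_nsmul_eq_zero.mp hx
  have h1 := h.map_nsmul n x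
  rw [hnx, h.map_zero] at h1
  have h2 : (n : ℝ) ^ 2 ≠ 0 := pow_ne_zero 2 (Nat.cast_ne_zero.mpr hn.ne')
  exact (mul_eq_zero.mp h1.symm).resolve_left h2

/-- Adding an element of finite order does not change the value. -/
lemma map_add_of_isOfFinAddOrder (h : Par Q) {x t : G} (ht : IsOfFinAddOrder t) : Q (x + t) = Q x := by
  obtain ⟨n, hn, hnt⟩ := isOfFinAddOrder_iff_nsmul_eq_zero.mp ht
  have h1 := h.map_nsmul n (x + t)
  rw [nsmul_add, hnt, add_zero, h.map_nsmul] at h1
  have h2 : (n : ℝ) ^ 2 ≠ 0 := pow_ne_zero 2 (Nat.cast_ne_zero.mpr hn.ne')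
  exact (mul_left_cancel₀ h2 h1).symm

/-- The kernel of a non-negative form with the Northcott property is the torsion subgroup. -/
theorem eq_zero_iff (h : Par Q) (hfin : ∀ B : ℝ, {x | Q x ≤ B}.Finite) (x : G) :
    Q x = 0 ↔ IsOfFinAddOrder x := by
  refine ⟨fun hx => ?_, h.eq_zero_of_isOfFinAddOrder⟩
  by_contra hinf
  refine (Set.infinite_range_of_injective (injective_nsmul_iff_not_isOfFinAddOrder.mpr hinf))
    ((hfin 0).subset ?_)
  rintro _ ⟨n, rfl⟩
  change Q (n • x) ≤ 0
  rw [h.map_nsmul, hx, mul_zero]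

/-- **The minimum on the elements of infinite order is positive.** -/
theorem exists_pos_le (h : Par Q) (hQ : ∀ x, 0 ≤ Q x) (hfin : ∀ B : ℝ, {x | Q x ≤ B}.Finite) :
    ∃ ε : ℝ, 0 < ε ∧ ∀ x : G, ¬ IsOfFinAddOrder x → ε ≤ Q x := by
  by_cases hne : ({x : G | ¬ IsOfFinAddOrder x}).Nonempty
  · have : Northcott Q := ⟨hfin⟩
    obtain ⟨x, hx, hmin⟩ := Northcott.exists_min_image Q _ hne
    refine ⟨Q x, lt_of_le_of_ne (hQ x) fun h0 => hx ((h.eq_zero_iff hfin x).mp h0.symm), ?_⟩
    exact fun y hy => hmin y hy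
  · exact ⟨1, one_pos, fun x hx => (hne ⟨x, hx⟩).elim⟩

end Par

/-! ### The limit -/

/-- Tate's limit `lim h(2ⁿ x) / 4ⁿ`. -/
noncomputable def canon (h : G → ℝ) (x : G) : ℝ :=
  limUnder atTop fun n : ℕ => h ((2 ^ n) • x) / 4 ^ n

section Limit

variable {h : G → ℝ} {C : ℝ}
  (H : ∀ x y, |h (x + y) + h (x - y) - 2 * (h x + h y)| ≤ C)

include H

lemma abs_dup_le (x : G) : |h (2 • x) - 4 * h x| ≤ C + |h 0| := by
  have h1 := H x x
  rw [sub_self, ← two_nsmul] at h1
  have h2 := abs_le.mp h1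
  have h3 := neg_abs_le (h 0)
  have h4 := le_abs_self (h 0)
  rw [abs_le]
  constructor <;> linarith [h2.1, h2.2]

lemma dist_step_le (x : G) (n : ℕ) :
    dist (h ((2 ^ n) • x) / 4 ^ n) (h ((2 ^ (n + 1)) • x) / 4 ^ (n + 1)) ≤
      (C + |h 0|) / 4 * (1 / 4) ^ n := by
  have h1 := abs_dup_le H ((2 ^ n) • x)
  rw [smul_smul, ← pow_succ'] at h1
  have h4 : (0 : ℝ) < 4 ^ (n + 1) := by positivity
  rw [dist_comm, Real.dist_eq]
  have e : h ((2 ^ (n + 1)) • x) / 4 ^ (n + 1) - h ((2 ^ n) • x) / 4 ^ n =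
      (h ((2 ^ (n + 1)) • x) - 4 * h ((2 ^ n) • x)) / 4 ^ (n + 1) := by
    field_simp
    ring
  rw [e, abs_div, abs_of_pos h4, div_le_iff₀ h4]
  refine h1.trans (le_of_eq ?_)
  rw [pow_succ, one_div, inv_pow]
  field_simp

theorem tendsto_canon (x : G) :
    Tendsto (fun n : ℕ => h ((2 ^ n) • x) / 4 ^ n) atTop (𝓝 (canon h x)) :=
  (cauchySeq_of_le_geometric (1 / 4) _ (by norm_num) (dist_step_le H x)).tendsto_limUnder

/-- **The limit is at bounded distance from `h`.** -/
theorem abs_canon_sub_le (x : G) : |canon h x - h x| ≤ (C + |h 0|) / 3 := by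
  have h1 := dist_le_of_le_geometric_of_tendsto₀ (1 / 4) _ (by norm_num) (dist_step_le H x)
    (tendsto_canon H x)
  rw [pow_zero, pow_zero, one_smul, div_one, dist_comm, Real.dist_eq] at h1
  refine h1.trans (le_of_eq ?_)
  ring

/-- **The limit satisfies the parallelogram law.** -/
theorem par_canon : Par (canon h) := by
  intro x y
  have h1 : Tendsto (fun n : ℕ =>
      h ((2 ^ n) • (x + y)) / 4 ^ n + h ((2 ^ n) • (x - y)) / 4 ^ n -
        2 * (h ((2 ^ n) • x) / 4 ^ n + h ((2 ^ n) • y) / 4 ^ n)) atTop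
      (𝓝 (canon h (x + y) + canon h (x - y) - 2 * (canon h x + canon h y))) :=
    ((tendsto_canon H _).add (tendsto_canon H _)).sub
      (((tendsto_canon H x).add (tendsto_canon H y)).const_mul 2)
  have h2 : Tendsto (fun n : ℕ => C * (1 / 4) ^ n) atTop (𝓝 0) := by
    have := (tendsto_pow_atTop_nhds_zero_of_lt_one (r := (1 / 4 : ℝ)) (by norm_num)
      (by norm_num)).const_mul C
    rwa [mul_zero] at this
  have h3 : Tendsto (fun n : ℕ =>
      h ((2 ^ n) • (x + y)) / 4 ^ n + h ((2 ^ n) • (x - y)) / 4 ^ n -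
        2 * (h ((2 ^ n) • x) / 4 ^ n + h ((2 ^ n) • y) / 4 ^ n)) atTop (𝓝 0) := by
    refine squeeze_zero_norm (fun n => ?_) h2
    have h4 : (0 : ℝ) < 4 ^ n := by positivity
    have h5 := H ((2 ^ n) • x) ((2 ^ n) • y)
    have e : h ((2 ^ n) • (x + y)) / 4 ^ n + h ((2 ^ n) • (x - y)) / 4 ^ n -
        2 * (h ((2 ^ n) • x) / 4 ^ n + h ((2 ^ n) • y) / 4 ^ n) =
        (h ((2 ^ n) • x + (2 ^ n) • y) + h ((2 ^ n) • x - (2 ^ n) • y) -
          2 * (h ((2 ^ n) • x) + h ((2 ^ n) • y))) / 4 ^ n := by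
      rw [smul_add, smul_sub]
      field_simp
    rw [e, Real.norm_eq_abs, abs_div, abs_of_pos h4, one_div, inv_pow, ← div_eq_mul_inv]
    gcongr
  have h4 := tendsto_nhds_unique h1 h3
  linarith

/-- **Uniqueness**: `canon h` is the only function with the parallelogram law at bounded distance
from `h`. -/
theorem Par.eq_canon {Q : G → ℝ} (hQ : Par Q) {B : ℝ} (hB : ∀ x, |Q x - h x| ≤ B) :
    Q = canon h :=
  hQ.eq_of_bounded (par_canon H) (B := B + (C + |h 0|) / 3) fun x => by
    have h1 := abs_le.mp (hB x)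
    have h2 := abs_le.mp (abs_canon_sub_le H x)
    rw [abs_le]
    constructor <;> linarith [h1.1, h1.2, h2.1, h2.2]

/-- A function which is bounded from below has a non-negative limit. -/
theorem canon_nonneg {b : ℝ} (hb : ∀ x, b ≤ h x) (x : G) : 0 ≤ canon h x := by
  have h1 : Tendsto (fun n : ℕ => b * (1 / 4) ^ n) atTop (𝓝 0) := by
    have := (tendsto_pow_atTop_nhds_zero_of_lt_one (r := (1 / 4 : ℝ)) (by norm_num)
      (by norm_num)).const_mul b
    rwa [mul_zero] at this
  refine le_of_tendsto_of_tendsto' h1 (tendsto_canon H x) fun n => ?_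
  rw [one_div, inv_pow, ← div_eq_mul_inv]
  gcongr
  exact hb _

/-- The Northcott property passes to the limit. -/
theorem finite_canon_le (hfin : ∀ B : ℝ, {x | h x ≤ B}.Finite) (B : ℝ) :
    {x | canon h x ≤ B}.Finite :=
  (hfin (B + (C + |h 0|) / 3)).subset fun x hx => by
    have h1 := abs_le.mp (abs_canon_sub_le H x)
    change canon h x ≤ B at hx
    change h x ≤ _
    linarith [h1.1]

end Limit

end Fermat.Agent.Cor.MordellWeil
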